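import Mathlib
import Fermat.Prelude.Def_ModularCurve_HeckeOperatorTotal
import Fermat.Prelude.Thm_ModularCurve_coeffMap_qExpand
import Fermat.Agent.S24.FFGenus
import Fermat.Agent.S24.FFPrincipalAbs
import Fermat.Agent.S18.Gauss.Concrete
import Fermat.Agent.S37.HeckeInputs.Basic
import Fermat.Agent.S37.FF.Fundamental
import Fermat.Agent.S37.FF.NormFormula

/-!
# S29 (R3, leaf Hk0): the inputs of the Hecke correspondence over an arbitrary algebraically
closed field of characteristic zero

`L` algebraically closed, `[Algebra ℚ L]` (e.g. `L = ℂ`),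
`F_L M := laurentBaseChange L (modularFunctionFieldFull M)`.  We port `S37/HeckeInputs` from
`ℚ̄` to `L`: `F_L M` has principal divisors, `α, β : F_L N → F_L (N ℓ)` are finite, the fundamental
identity and the norm formula hold, hence `HeckeInputsAlong L N ℓ` and the Prelude's total Hecke
operator `heckeOperatorAlong L N ℓ` is the genuine correspondence `α_* β^*`.
-/

set_option autoImplicit false

noncomputable section

open AlgebraicCurve IntermediateField ModularCurve
open Fermat.Agent.S24
open Fermat.Agent.S18.Gauss.Residue (Jel)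
open Fermat.Agent.S18.Gauss

namespace Fermat.Agent.S29.HeckeInputsL

variable (L : Type*) [Field L] [Algebra ℚ L]

/-- `F_L M = L(j(q^d) : d ∣ M) ⊆ L((q))` -/
abbrev FL (M : ℕ) : Type _ := ↥(laurentBaseChange L (modularFunctionFieldFull M))

/-- `J = j(q)` as an element of `F_L M` -/
abbrev JL (M : ℕ) [NeZero M] : FL L M := Jel (Concrete.jqModC_mem L M)

theorem transcendental_JL (M : ℕ) [NeZero M] : Transcendental L (JL L M) :=
  Concrete.transcendental_Jel L M

theorem finiteDimensional_JL (M : ℕ) [NeZero M] : FiniteDimensional L⟮JL L M⟯ (FL L M) :=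
  Concrete.finiteDimensional L M

theorem charZero_L : CharZero L :=
  charZero_of_injective_algebraMap (algebraMap ℚ L).injective

theorem charZero_FL (M : ℕ) : CharZero (FL L M) :=
  haveI := charZero_L L
  charZero_of_injective_algebraMap (algebraMap L (FL L M)).injective

attribute [local instance] finiteDimensional_JL charZero_L charZero_FL

section AlgClosed

variable [IsAlgClosed L]

/-- every place of `F_L M` has degree one -/
theorem deg_eq_one_L (M : ℕ) [NeZero M] (v : Place L (FL L M)) : v.deg = 1 :=
  FFGenus.deg_eq_one (JL L M) (transcendental_JL L M) v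

/-- `F_L M` has principal divisors (of degree zero) -/
theorem hasPrincipalDivisors_L (M : ℕ) [NeZero M] : HasPrincipalDivisors L (FL L M) :=
  FFPrin.hasPrincipalDivisors_of
    (fun v => deg_eq_one_L L M v)
    (FFGenus.zeros_finite' (JL L M) (transcendental_JL L M))
    (FFGenus.sum_ord_zeros' (JL L M) (transcendental_JL L M))

end AlgClosed

variable (N ℓ : ℕ) [NeZero N] [NeZero ℓ]

theorem heckeAlphaBar_JL : heckeAlphaBar L N ℓ (JL L N) = JL L (N * ℓ) := by
  apply Subtype.ext
  rw [coe_heckeAlphaBar]

theorem transcendental_beta_JL : Transcendental L (heckeBetaBar L N ℓ (JL L N)) := by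
  intro h
  exact transcendental_JL L N
    ((isAlgebraic_algHom_iff (heckeBetaBar L N ℓ) (heckeBetaBar L N ℓ).injective).mp h)

theorem finiteAlong_alpha : FiniteAlong L (heckeAlphaBar L N ℓ) := by
  have : FiniteDimensional L⟮heckeAlphaBar L N ℓ (JL L N)⟯ (FL L (N * ℓ)) := by
    rw [heckeAlphaBar_JL]
    infer_instance
  exact Fermat.Agent.S37.HeckeInputs.finiteAlong_of_finiteDimensional (heckeAlphaBar L N ℓ)
    (JL L N)

theorem finiteAlong_beta : FiniteAlong L (heckeBetaBar L N ℓ) := by
  have : FiniteDimensional L⟮heckeBetaBar L N ℓ (JL L N)⟯ (FL L (N * ℓ)) :=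
    FFGenus.finiteDimensional_of (JL L (N * ℓ)) (transcendental_JL L (N * ℓ)) _
      (transcendental_beta_JL L N ℓ)
  exact Fermat.Agent.S37.HeckeInputs.finiteAlong_of_finiteDimensional (heckeBetaBar L N ℓ)
    (JL L N)

theorem heckeAlphaBarIntegral : HeckeAlphaBarIntegral L N ℓ :=
  Fermat.Agent.S37.HeckeInputs.isIntegral_of_finiteAlong _ (finiteAlong_alpha L N ℓ)

theorem heckeBetaBarIntegral : HeckeBetaBarIntegral L N ℓ :=
  Fermat.Agent.S37.HeckeInputs.isIntegral_of_finiteAlong _ (finiteAlong_beta L N ℓ)

theorem normFormulaAlong_alpha :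
    NormFormulaAlong L (heckeAlphaBar L N ℓ) (finiteAlong_alpha L N ℓ) :=
  Fermat.Agent.S37.FF.NormFormula.normFormulaAlong _ _

theorem normFormulaAlong_beta :
    NormFormulaAlong L (heckeBetaBar L N ℓ) (finiteAlong_beta L N ℓ) :=
  Fermat.Agent.S37.FF.NormFormula.normFormulaAlong _ _

section AlgClosed

variable [IsAlgClosed L]

/-- separability along a finite algebra map in characteristic zero -/
theorem isSeparable_along' {K F F' : Type*} [Field K] [Field F] [Field F'] [Algebra K F]
    [Algebra K F'] [CharZero F] (φ : F →ₐ[K] F') (h : FiniteAlong K φ) :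
    letI := algebraAlong φ; Algebra.IsSeparable F F' := by
  let _ := algebraAlong φ
  have : Module.Finite F F' := h
  infer_instance

theorem fundamentalIdentityAlong_beta :
    haveI := hasPrincipalDivisors_L L (N * ℓ)
    FundamentalIdentityAlong L (heckeBetaBar L N ℓ) (heckeBetaBarIntegral L N ℓ) := by
  have := hasPrincipalDivisors_L L (N * ℓ)
  exact Fermat.Agent.S37.FF.fundamentalIdentityAlong _ _ (finiteAlong_beta L N ℓ)
    (isSeparable_along' _ (finiteAlong_beta L N ℓ)) (deg_eq_one_L L N) (deg_eq_one_L L (N * ℓ))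

theorem fundamentalIdentityAlong_alpha :
    haveI := hasPrincipalDivisors_L L (N * ℓ)
    FundamentalIdentityAlong L (heckeAlphaBar L N ℓ) (heckeAlphaBarIntegral L N ℓ) := by
  have := hasPrincipalDivisors_L L (N * ℓ)
  exact Fermat.Agent.S37.FF.fundamentalIdentityAlong _ _ (finiteAlong_alpha L N ℓ)
    (isSeparable_along' _ (finiteAlong_alpha L N ℓ)) (deg_eq_one_L L N) (deg_eq_one_L L (N * ℓ))

/-- **all inputs of the Hecke correspondence `T_ℓ = α_* β^*` on `Pic⁰(F_L N)` hold**, for every
algebraically closed field `L` of characteristic zero. -/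
theorem heckeInputsAlong : HeckeInputsAlong L N ℓ :=
  ⟨heckeAlphaBarIntegral L N ℓ, heckeBetaBarIntegral L N ℓ, hasPrincipalDivisors_L L (N * ℓ),
    finiteAlong_alpha L N ℓ, fundamentalIdentityAlong_beta L N ℓ, normFormulaAlong_alpha L N ℓ⟩

/-- the Prelude's total Hecke operator over `L` is the genuine correspondence. -/
theorem heckeOperatorAlong_eq_heckePic0Bar :
    haveI := hasPrincipalDivisors_L L (N * ℓ)
    heckeOperatorAlong L N ℓ =
      heckePic0Bar (heckeAlphaBarIntegral L N ℓ) (heckeBetaBarIntegral L N ℓ)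
        (fundamentalIdentityAlong_beta L N ℓ) (finiteAlong_alpha L N ℓ)
        (normFormulaAlong_alpha L N ℓ) := by
  have := hasPrincipalDivisors_L L (N * ℓ)
  exact heckeOperatorAlong_eq _ _ _ _ _

end AlgClosed

end Fermat.Agent.S29.HeckeInputsL
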