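import Mathlib
import Fermat.Prelude.Def_ModularCurve_HeckeModule
import Fermat.Prelude.Def_ModularCurve_ArithmeticGalois
import Fermat.Prelude.Def_FLTPrelim_Modularity

/-!
# S29 / S42: the INTERFACE between the two halves of project (R)

* `Jp N p` : the `p`-torsion of `JZero N = Pic⁰(F_N ⊗ ℚ̄)`, a `ZMod p`-module with `G_ℚ`-action
  (Prelude: `Pic0.torsion`, `JZero.torsionGaloisRep`);
* `heckeTors N p ℓ` : the Hecke operator `heckeOperatorBar N ℓ` restricted to `Jp N p`, as a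
  `ZMod p`-linear endomorphism;
* `Vbig N p k0 := k0 ⊗[ZMod p] Jp N p`, with `Tl N p k0 ℓ := (heckeTors N p ℓ).baseChange k0` and
  the Galois action `galBig N p k0 σ := (JZero.torsionGaloisRep N p σ).baseChange k0`;
* `NonVanish N p k0 a` : there is a nonzero `v : Vbig N p k0` with `Tl ℓ v = a ℓ • v` for all
  primes `ℓ ∤ N p`.

Half (R3) proves `NonVanish N p k0 (fun ℓ => φ0 (a_ℓ g))` for every field `k0` of characteristic `p`
and `φ0 : ℤ̄ →+* k0`; half R-core deduces S29 and S42 from it.  No `HeckeAlg`-module, no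
commutativity of Hecke operators is used anywhere.
-/

set_option autoImplicit false

noncomputable section

open AlgebraicCurve ModularCurve
open scoped TensorProduct

namespace Fermat.Agent.S29.Interface

/-- the `p`-torsion of `J₀(N)(ℚ̄)`. -/
abbrev Jp (N p : ℕ) : Type :=
  Pic0.torsion (AlgebraicClosure ℚ) (modularFunctionFieldBar N) p

theorem heckeOperatorBar_mem_torsion (N p : ℕ) [NeZero N] (ℓ : Nat.Primes) {x : JZero N}
    (hx : x ∈ Pic0.torsion (AlgebraicClosure ℚ) (modularFunctionFieldBar N) p) :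
    heckeOperatorBar N ℓ x ∈ Pic0.torsion (AlgebraicClosure ℚ) (modularFunctionFieldBar N) p := by
  rw [Pic0.mem_torsion] at hx ⊢
  rw [← map_zsmul, hx, map_zero]

/-- `T_ℓ` on `Jp N p`, additive version. -/
def heckeTorsAdd (N p : ℕ) [NeZero N] (ℓ : Nat.Primes) : Jp N p →+ Jp N p where
  toFun x := ⟨heckeOperatorBar N ℓ (x : JZero N), heckeOperatorBar_mem_torsion N p ℓ x.2⟩
  map_zero' := Subtype.ext (by
    show heckeOperatorBar N ℓ ((0 : Jp N p) : JZero N) = ((0 : Jp N p) : JZero N)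
    rw [AddSubgroup.coe_zero, map_zero])
  map_add' x y := Subtype.ext (by
    show heckeOperatorBar N ℓ ((x + y : Jp N p) : JZero N) = _
    rw [AddSubgroup.coe_add, map_add]
    rfl)

/-- `T_ℓ` on `Jp N p`, as a `ZMod p`-linear endomorphism. -/
def heckeTors (N p : ℕ) [NeZero N] (ℓ : Nat.Primes) : Module.End (ZMod p) (Jp N p) :=
  (heckeTorsAdd N p ℓ).toZModLinearMap p

@[simp] theorem coe_heckeTors (N p : ℕ) [NeZero N] (ℓ : Nat.Primes) (x : Jp N p) :
    ((heckeTors N p ℓ x : Jp N p) : JZero N) = heckeOperatorBar N ℓ (x : JZero N) := rfl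

section Big

variable (N p : ℕ) (k0 : Type) [Field k0] [Algebra (ZMod p) k0]

/-- the big `k0`-vector space `k0 ⊗ J₀(N)[p]`. -/
abbrev Vbig : Type := k0 ⊗[ZMod p] Jp N p

/-- `T_ℓ` on `Vbig`. -/
def Tl [NeZero N] (ℓ : Nat.Primes) : Module.End k0 (Vbig N p k0) :=
  (heckeTors N p ℓ).baseChange k0

@[simp] theorem Tl_tmul [NeZero N] (ℓ : Nat.Primes) (c : k0) (x : Jp N p) :
    Tl N p k0 ℓ (c ⊗ₜ[ZMod p] x) = c ⊗ₜ[ZMod p] heckeTors N p ℓ x := rfl

/-- the Galois action on `Vbig`. -/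
def galBig : (AlgebraicClosure ℚ ≃ₐ[ℚ] AlgebraicClosure ℚ) →* Module.End k0 (Vbig N p k0) where
  toFun σ := (JZero.torsionGaloisRep N p σ).baseChange k0
  map_one' := by rw [map_one, LinearMap.baseChange_one]
  map_mul' σ τ := by rw [map_mul, LinearMap.baseChange_mul]

@[simp] theorem galBig_tmul (σ : AlgebraicClosure ℚ ≃ₐ[ℚ] AlgebraicClosure ℚ) (c : k0)
    (x : Jp N p) :
    galBig N p k0 σ (c ⊗ₜ[ZMod p] x) = c ⊗ₜ[ZMod p] JZero.torsionGaloisRep N p σ x := rfl

/-- **THE INTERFACE**: a nonzero simultaneous eigenvector of the `T_ℓ`, `ℓ ∤ N p`, in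
`k0 ⊗ J₀(N)(ℚ̄)[p]` with eigenvalues `a ℓ`. -/
def NonVanish [NeZero N] (a : Nat.Primes → k0) : Prop :=
  ∃ v : Vbig N p k0, v ≠ 0 ∧
    ∀ ℓ : Nat.Primes, ¬ (ℓ : ℕ) ∣ N * p → Tl N p k0 ℓ v = a ℓ • v

end Big

/-- **the target of half (R3)** (to be proved in `Fermat/Agent/S29/NonVanish/Main.lean`): for a
normalised eigenform `g` of level `N ≥ 1`, a prime `p`, a field `k0` with a `ZMod p`-algebra
structure and `φ0 : ℤ̄ →+* k0`, integral lifts `a ℓ` of the `q`-coefficients of `g`: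
`NonVanish N p k0 (fun ℓ => φ0 (a ℓ))`. -/
def NonVanishTarget : Prop :=
  ∀ (N : ℕ) [NeZero N] (g : CuspForm (CongruenceSubgroup.Gamma0 N) 2),
    g.IsNormalizedEigenform → ∀ (p : ℕ), p.Prime →
    ∀ (k0 : Type) [Field k0] [Algebra (ZMod p) k0] (φ0 : integralClosure ℤ ℂ →+* k0)
      (a : Nat.Primes → integralClosure ℤ ℂ),
      (∀ ℓ : Nat.Primes, ¬ (ℓ : ℕ) ∣ N * p →
        ((a ℓ : integralClosure ℤ ℂ) : ℂ) = ModularFormClass.qCoeff g ℓ) →
      NonVanish N p k0 (fun ℓ => φ0 (a ℓ))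

end Fermat.Agent.S29.Interface

end
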