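import Mathlib
import Fermat.Prelude.Def_ModularCurve_ArithmeticGalois
import Fermat.Agent.S37.Descent.Rational

/-!
# S29 (R2, leaf STAB): divisor classes of `X₀(n)` over `ℚ̄` have open stabilisers

`Kb = ℚ̄`, `G = Gal(ℚ̄/ℚ)` acting on `F_K = laurentBaseChange Kb F₀` coefficientwise, hence on
places, divisors and `Pic⁰`.

* `smul_up_of_fixing` : `σ` fixing `L2` pointwise fixes the image of `F_{L2}` in `F_K`;
* `smul_place_of_determined` : `σ` fixing `L2` fixes every place determined over `L2`;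
* `exists_fixing_pic0_of_coord`, `exists_fixing_pic0` : every class in `Pic⁰` is fixed by
  `Gal(ℚ̄/L1)` for a finite NORMAL `L1/ℚ` (open stabiliser);
* `exists_fixing_finset` : the same for finitely many classes at once;
* `finite_orbit` : Galois orbits in `JZero n` are finite.
-/

set_option autoImplicit false

noncomputable section

namespace Fermat.Agent.S29.OpenStab

open HahnSeries AlgebraicCurve ModularCurve IntermediateField
open Fermat.Agent.S18.ConstExt Fermat.Agent.S37.Descent.Rational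

local notation "Kb" => AlgebraicClosure ℚ

variable {F₀ : IntermediateField ℚ (LaurentSeries ℚ)}

/-- `σ` fixing `L2` pointwise fixes the image of `F_{L2}` in `F_K`. -/
theorem smul_up_of_fixing (σ : Kb ≃ₐ[ℚ] Kb) (L2 : IntermediateField ℚ Kb)
    (hσ : ∀ a ∈ L2, σ a = a) (x : laurentBaseChange L2 F₀) :
    arithmeticGalois F₀ σ • up (K := Kb) F₀ x = up (K := Kb) F₀ x := by
  apply Subtype.ext
  rw [coe_arithmeticGalois_smul, coe_up, coeffMap_coeffMap]
  exact coeffMap_congr (RingHom.ext fun a : L2 => hσ (a : Kb) a.2) _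

/-- `σ` fixing `L2` pointwise fixes every place determined over `L2`. -/
theorem smul_place_of_determined (σ : Kb ≃ₐ[ℚ] Kb) (L2 : IntermediateField ℚ Kb)
    (hσ : ∀ a ∈ L2, σ a = a) (P : Place Kb (laurentBaseChange Kb F₀))
    (hP : DeterminedOver F₀ L2 P) : arithmeticGalois F₀ σ • P = P := by
  apply hP
  intro x
  have h := SemilinearAut.ord_smul (arithmeticGalois F₀ σ) P (up (K := Kb) F₀ x)
  rwa [smul_up_of_fixing σ L2 hσ x] at h

/-- A semilinear automorphism fixing the support of a divisor fixes the divisor. -/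
theorem smul_divisor_of_fixing {K F : Type*} [Field K] [Field F] [Algebra K F]
    (g : SemilinearAut K F) (D : Divisor K F) (h : ∀ P ∈ D.support, g • P = P) : g • D = D := by
  classical
  induction D using Finsupp.induction with
  | zero => exact smul_zero g
  | single_add v n D hv hn ih =>
    have hsupp : (Finsupp.single v n + D).support = insert v D.support := by
      rw [Finsupp.support_add_eq, Finsupp.support_single _ hn, Finset.insert_eq]
      rw [Finsupp.support_single _ hn]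
      exact Finset.disjoint_singleton_left.mpr hv
    rw [hsupp] at h
    rw [smul_add, SemilinearAut.smul_single, h v (Finset.mem_insert_self _ _),
      ih (fun P hP => h P (Finset.mem_insert_of_mem hP))]

/-- A semilinear automorphism fixing the support of a representing divisor fixes the class. -/
theorem smul_pic0_of_fixing {K F : Type*} [Field K] [Field F] [Algebra K F]
    (g : SemilinearAut K F) (D : Divisor.degZero (K := K) (F := F))
    (h : ∀ P ∈ (D : Divisor K F).support, g • P = P) : g • Pic0.mk D = Pic0.mk D := by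
  rw [SemilinearAut.pic0_smul_mk]
  congr 1
  exact Subtype.ext (by rw [SemilinearAut.coe_degZeroSMulHom, smul_divisor_of_fixing g _ h])

/-- **Open stabilisers**, generic in `F₀` (given a rational coordinate). -/
theorem exists_fixing_pic0_of_coord {y₀ : LaurentSeries ℚ} (hy₀ : y₀ ∈ F₀)
    [hy : Fact (Transcendental Kb (ratElt F₀ Kb hy₀))]
    [FiniteDimensional Kb⟮ratElt F₀ Kb hy₀⟯ (laurentBaseChange Kb F₀)]
    (x : Pic0 Kb (laurentBaseChange Kb F₀)) :
    ∃ L1 : IntermediateField ℚ Kb, FiniteDimensional ℚ L1 ∧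
      (∀ σ : Kb →ₐ[ℚ] Kb, L1.map σ = L1) ∧
      ∀ σ : Kb ≃ₐ[ℚ] Kb, (∀ a ∈ L1, σ a = a) → σ • x = x := by
  obtain ⟨D, rfl⟩ := Pic0.mk_surjective x
  obtain ⟨L1, hfin, hstab, -, hL1⟩ :=
    exists_galois_field_of_definition_of_coord F₀ hy₀ (D : Divisor Kb _).support ∅ ∅
  refine ⟨L1, hfin, hstab, fun σ hσ => ?_⟩
  rw [galois_smul_pic0_def]
  exact smul_pic0_of_fixing _ D fun P hP =>
    smul_place_of_determined σ L1 hσ P ((hL1 L1 le_rfl).1 P hP)

section Modular

variable (n : ℕ) [NeZero n]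

/-- **Open stabilisers in `J₀(n)(ℚ̄)`**: every class is fixed by `Gal(ℚ̄/L1)` for a finite normal
`L1/ℚ`. -/
theorem exists_fixing_pic0 (x : JZero n) :
    ∃ L1 : IntermediateField ℚ Kb, FiniteDimensional ℚ L1 ∧
      (∀ σ : Kb →ₐ[ℚ] Kb, L1.map σ = L1) ∧
      ∀ σ : Kb ≃ₐ[ℚ] Kb, (∀ a ∈ L1, σ a = a) → σ • x = x :=
  exists_fixing_pic0_of_coord (F₀ := modularFunctionFieldFull n) (jqd_mem_full n (one_dvd n)) x

/-- Finitely many classes at once. -/
theorem exists_fixing_finset (S : Finset (JZero n)) :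
    ∃ L1 : IntermediateField ℚ Kb, FiniteDimensional ℚ L1 ∧
      (∀ σ : Kb →ₐ[ℚ] Kb, L1.map σ = L1) ∧
      ∀ σ : Kb ≃ₐ[ℚ] Kb, (∀ a ∈ L1, σ a = a) → ∀ x ∈ S, σ • x = x := by
  classical
  induction S using Finset.induction_on with
  | empty =>
    refine ⟨⊥, inferInstance, fun σ => ?_, fun σ _ x hx => absurd hx (Finset.notMem_empty x)⟩
    exact IntermediateField.map_bot σ
  | insert x S hx ih =>
    obtain ⟨L1, hfin1, hst1, hfix1⟩ := ih
    obtain ⟨L2, hfin2, hst2, hfix2⟩ := exists_fixing_pic0 n x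
    haveI := hfin1
    haveI := hfin2
    refine ⟨L1 ⊔ L2, inferInstance, fun σ => ?_, fun σ hσ y hy => ?_⟩
    · rw [IntermediateField.map_sup, hst1 σ, hst2 σ]
    · rcases Finset.mem_insert.mp hy with rfl | hy
      · exact hfix2 σ fun a ha => hσ a ((le_sup_right : L2 ≤ L1 ⊔ L2) ha)
      · exact hfix1 σ (fun a ha => hσ a ((le_sup_left : L1 ≤ L1 ⊔ L2) ha)) y hy

omit [NeZero n] in
/-- The class `σ • x` only depends on the restriction of `σ` to a field `L1` of definition. -/
theorem smul_eq_smul_of_restrict_eq (x : JZero n) (L1 : IntermediateField ℚ Kb)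
    (hfix : ∀ σ : Kb ≃ₐ[ℚ] Kb, (∀ a ∈ L1, σ a = a) → σ • x = x)
    (σ τ : Kb ≃ₐ[ℚ] Kb) (h : ∀ a ∈ L1, σ a = τ a) : σ • x = τ • x := by
  have h1 : (τ⁻¹ * σ) • x = x := hfix _ fun a ha => by
    rw [AlgEquiv.mul_apply, h a ha]
    exact τ.symm_apply_apply a
  calc σ • x = τ • ((τ⁻¹ * σ) • x) := by rw [← mul_smul, mul_inv_cancel_left]
    _ = τ • x := by rw [h1]

/-- **Galois orbits in `J₀(n)(ℚ̄)` are finite.** -/
theorem finite_orbit (x : JZero n) :
    (Set.range fun σ : Kb ≃ₐ[ℚ] Kb => σ • x).Finite := by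
  classical
  obtain ⟨L1, hfin, -, hfix⟩ := exists_fixing_pic0 n x
  haveI := hfin
  let r : (Kb ≃ₐ[ℚ] Kb) → (L1 →ₐ[ℚ] Kb) := fun σ => (σ : Kb →ₐ[ℚ] Kb).comp L1.val
  let f : (L1 →ₐ[ℚ] Kb) → JZero n := fun t =>
    if h : ∃ σ, r σ = t then h.choose • x else x
  refine (Set.finite_range f).subset ?_
  rintro _ ⟨σ, rfl⟩
  refine ⟨r σ, ?_⟩
  have hex : ∃ τ, r τ = r σ := ⟨σ, rfl⟩
  simp only [f, dif_pos hex]
  refine smul_eq_smul_of_restrict_eq n x L1 hfix _ _ fun a ha => ?_
  have := congrArg (fun t : L1 →ₐ[ℚ] Kb => t ⟨a, ha⟩) hex.choose_spec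
  exact this

end Modular

end Fermat.Agent.S29.OpenStab
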