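import Mathlib
import Fermat.Agent.S29.OpenStab

/-!
# S29 (R-core C3): finite level without finiteness of `J[p]`

`G = Gal(ℚ̄/ℚ)`, `ρ : G →* Module.End k V`.  A vector `v` has *finite level* if it is fixed by
`Gal(ℚ̄/L)` for some number field `L`.

* `HasFiniteLevelRep ρ v`, closed under `0`, `+`, `-`, `•`, finite sums, and `ρ τ`;
* `exists_normal_level_of` : the level can be taken normal (stable under all `σ`);
* `orbitSpan ρ v` : the `k`-span of the orbit; `mem_orbitSpan_self`, `orbitSpan_stable`,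
  `finiteDimensional_orbitSpan`, `exists_normal_level` (the whole span is fixed by `Gal(ℚ̄/L)`,
  `L/ℚ` finite normal), `exists_normal_level_ge` (`L ⊇` a given number field, e.g. `ℚ(μ_p)`);
* `hasFiniteLevelRep_tmul` : base change `V = k ⊗[R] M`;
* `hasFiniteLevel_torsion` : the `p`-torsion of `JZero N` with `JZero.torsionGaloisRep`;
* `exists_stable_finite` : for every `v : k ⊗[ZMod p] J[p]` a finite-dimensional `G`-stable
  subspace `W ∋ v` on which `G` acts through `Gal(L/ℚ)`, `L/ℚ` finite normal.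
-/

set_option autoImplicit false

noncomputable section

namespace Fermat.Agent.S29.FiniteLevel

open AlgebraicCurve ModularCurve IntermediateField TensorProduct
open Fermat.Agent.S37.Descent.Rational

local notation "Kb" => AlgebraicClosure ℚ
local notation "GQ" => (AlgebraicClosure ℚ ≃ₐ[ℚ] AlgebraicClosure ℚ)

section Rep

variable {k V : Type*} [Field k] [AddCommGroup V] [Module k V] (ρ : GQ →* Module.End k V)

/-- `v` is fixed by `Gal(ℚ̄/L)` for some number field `L`. -/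
def HasFiniteLevelRep (v : V) : Prop :=
  ∃ L : IntermediateField ℚ Kb, FiniteDimensional ℚ L ∧
    ∀ σ : GQ, (∀ a ∈ L, σ a = a) → ρ σ v = v

variable {ρ}

theorem HasFiniteLevelRep.zero : HasFiniteLevelRep ρ (0 : V) :=
  ⟨⊥, inferInstance, fun _ _ => map_zero _⟩

theorem HasFiniteLevelRep.add {v w : V} (hv : HasFiniteLevelRep ρ v)
    (hw : HasFiniteLevelRep ρ w) : HasFiniteLevelRep ρ (v + w) := by
  obtain ⟨L1, h1, hv⟩ := hv
  obtain ⟨L2, h2, hw⟩ := hw
  haveI := h1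
  haveI := h2
  refine ⟨L1 ⊔ L2, inferInstance, fun σ hσ => ?_⟩
  rw [map_add, hv σ fun a ha => hσ a ((le_sup_left : L1 ≤ L1 ⊔ L2) ha),
    hw σ fun a ha => hσ a ((le_sup_right : L2 ≤ L1 ⊔ L2) ha)]

theorem HasFiniteLevelRep.smul {v : V} (hv : HasFiniteLevelRep ρ v) (c : k) :
    HasFiniteLevelRep ρ (c • v) := by
  obtain ⟨L1, h1, hv⟩ := hv
  exact ⟨L1, h1, fun σ hσ => by rw [map_smul, hv σ hσ]⟩

theorem HasFiniteLevelRep.neg {v : V} (hv : HasFiniteLevelRep ρ v) :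
    HasFiniteLevelRep ρ (-v) := by
  obtain ⟨L1, h1, hv⟩ := hv
  exact ⟨L1, h1, fun σ hσ => by rw [map_neg, hv σ hσ]⟩

theorem HasFiniteLevelRep.sum {ι : Type*} (s : Finset ι) (f : ι → V)
    (h : ∀ i ∈ s, HasFiniteLevelRep ρ (f i)) : HasFiniteLevelRep ρ (∑ i ∈ s, f i) := by
  classical
  induction s using Finset.induction_on with
  | empty => simpa using HasFiniteLevelRep.zero
  | insert i s hi ih =>
    rw [Finset.sum_insert hi]
    exact (h i (Finset.mem_insert_self i s)).add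
      (ih fun j hj => h j (Finset.mem_insert_of_mem hj))

/-- enlarging the level -/
theorem HasFiniteLevelRep.exists_ge {v : V} (hv : HasFiniteLevelRep ρ v)
    (L0 : IntermediateField ℚ Kb) [FiniteDimensional ℚ L0] :
    ∃ L : IntermediateField ℚ Kb, FiniteDimensional ℚ L ∧ L0 ≤ L ∧
      ∀ σ : GQ, (∀ a ∈ L, σ a = a) → ρ σ v = v := by
  obtain ⟨L1, h1, hv⟩ := hv
  haveI := h1
  exact ⟨L0 ⊔ L1, inferInstance, le_sup_left,
    fun σ hσ => hv σ fun a ha => hσ a ((le_sup_right : L1 ≤ L0 ⊔ L1) ha)⟩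

/-- **Normal level**, containing a prescribed number field `L0`. -/
theorem exists_normal_level_of {v : V} (hv : HasFiniteLevelRep ρ v)
    (L0 : IntermediateField ℚ Kb) [FiniteDimensional ℚ L0] :
    ∃ L : IntermediateField ℚ Kb, FiniteDimensional ℚ L ∧ L0 ≤ L ∧
      (∀ σ : Kb →ₐ[ℚ] Kb, L.map σ = L) ∧
      ∀ σ : GQ, (∀ a ∈ L, σ a = a) → ρ σ v = v := by
  obtain ⟨L1, h1, hle, hv⟩ := hv.exists_ge L0
  haveI := h1
  haveI : Normal ℚ Kb := normal_Kb
  obtain ⟨L, hL1, hfin, -, hst⟩ := exists_normal_finite L1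
  exact ⟨L, hfin, hle.trans hL1, hst, fun σ hσ => hv σ fun a ha => hσ a (hL1 ha)⟩

/-- conjugation: if `σ` fixes a `τ`-stable field `L` pointwise, so does `τ⁻¹ σ τ`. -/
theorem fixes_conj {L : IntermediateField ℚ Kb} (hst : ∀ σ : Kb →ₐ[ℚ] Kb, L.map σ = L)
    {σ : GQ} (hσ : ∀ a ∈ L, σ a = a) (τ : GQ) : ∀ a ∈ L, (τ⁻¹ * σ * τ) a = a := by
  intro a ha
  have hτa : τ a ∈ L := by
    have h := hst (τ : Kb →ₐ[ℚ] Kb)
    have : (τ : Kb →ₐ[ℚ] Kb) a ∈ L.map (τ : Kb →ₐ[ℚ] Kb) :=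
      (IntermediateField.mem_map L).mpr ⟨a, ha, rfl⟩
    rw [h] at this
    exact this
  rw [AlgEquiv.mul_apply, AlgEquiv.mul_apply, hσ _ hτa]
  exact τ.symm_apply_apply a

variable (ρ)

/-- The `k`-span of the Galois orbit of `v`. -/
def orbitSpan (v : V) : Submodule k V := Submodule.span k (Set.range fun σ : GQ => ρ σ v)

theorem mem_orbitSpan_self (v : V) : v ∈ orbitSpan ρ v :=
  Submodule.subset_span ⟨1, by
    show ρ 1 v = v
    rw [map_one, Module.End.one_apply]⟩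

theorem orbitSpan_stable (v : V) (τ : GQ) : orbitSpan ρ v ≤ (orbitSpan ρ v).comap (ρ τ) := by
  rw [orbitSpan, Submodule.span_le]
  rintro _ ⟨σ, rfl⟩
  rw [SetLike.mem_coe, Submodule.mem_comap]
  refine Submodule.subset_span ⟨τ * σ, ?_⟩
  simp only [map_mul, Module.End.mul_apply]

variable {ρ}

/-- `ρ σ v` only depends on the restriction of `σ` to a level of `v`. -/
theorem apply_eq_of_restrict_eq {v : V} {L : IntermediateField ℚ Kb}
    (hv : ∀ σ : GQ, (∀ a ∈ L, σ a = a) → ρ σ v = v) (σ τ : GQ) (h : ∀ a ∈ L, σ a = τ a) :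
    ρ σ v = ρ τ v := by
  have h1 : ρ (τ⁻¹ * σ) v = v := hv _ fun a ha => by
    rw [AlgEquiv.mul_apply, h a ha]
    exact τ.symm_apply_apply a
  calc ρ σ v = ρ τ (ρ (τ⁻¹ * σ) v) := by
        rw [← Module.End.mul_apply, ← map_mul, mul_inv_cancel_left]
    _ = ρ τ v := by rw [h1]

theorem finite_orbit {v : V} (hv : HasFiniteLevelRep ρ v) :
    (Set.range fun σ : GQ => ρ σ v).Finite := by
  classical
  obtain ⟨L1, hfin, hfix⟩ := hv
  haveI := hfin
  let r : GQ → (L1 →ₐ[ℚ] Kb) := fun σ => (σ : Kb →ₐ[ℚ] Kb).comp L1.val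
  let f : (L1 →ₐ[ℚ] Kb) → V := fun t => if h : ∃ σ, r σ = t then ρ h.choose v else v
  refine (Set.finite_range f).subset ?_
  rintro _ ⟨σ, rfl⟩
  refine ⟨r σ, ?_⟩
  have hex : ∃ τ, r τ = r σ := ⟨σ, rfl⟩
  simp only [f, dif_pos hex]
  refine apply_eq_of_restrict_eq hfix _ _ fun a ha => ?_
  have := congrArg (fun t : L1 →ₐ[ℚ] Kb => t ⟨a, ha⟩) hex.choose_spec
  exact this

theorem finiteDimensional_orbitSpan {v : V} (hv : HasFiniteLevelRep ρ v) :
    FiniteDimensional k (orbitSpan ρ v) :=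
  FiniteDimensional.span_of_finite k (finite_orbit hv)

/-- **The whole orbit span has a finite normal level** (containing a prescribed `L0`). -/
theorem exists_normal_level_ge {v : V} (hv : HasFiniteLevelRep ρ v)
    (L0 : IntermediateField ℚ Kb) [FiniteDimensional ℚ L0] :
    ∃ L : IntermediateField ℚ Kb, FiniteDimensional ℚ L ∧ L0 ≤ L ∧
      (∀ σ : Kb →ₐ[ℚ] Kb, L.map σ = L) ∧
      ∀ σ : GQ, (∀ a ∈ L, σ a = a) → ∀ w ∈ orbitSpan ρ v, ρ σ w = w := by
  obtain ⟨L, hfin, hle, hst, hfix⟩ := exists_normal_level_of hv L0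
  refine ⟨L, hfin, hle, hst, fun σ hσ w hw => ?_⟩
  induction hw using Submodule.span_induction with
  | mem x hx =>
    obtain ⟨τ, rfl⟩ := hx
    have h1 : ρ (τ⁻¹ * σ * τ) v = v := hfix _ (fixes_conj hst hσ τ)
    calc ρ σ (ρ τ v) = ρ τ (ρ (τ⁻¹ * σ * τ) v) := by
          rw [← Module.End.mul_apply, ← Module.End.mul_apply, ← map_mul, ← map_mul]
          congr 2
          group
      _ = ρ τ v := by rw [h1]
  | zero => exact map_zero _
  | add x y _ _ hx hy => rw [map_add, hx, hy]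
  | smul c x _ hx => rw [map_smul, hx]

theorem exists_normal_level {v : V} (hv : HasFiniteLevelRep ρ v) :
    ∃ L : IntermediateField ℚ Kb, FiniteDimensional ℚ L ∧
      (∀ σ : Kb →ₐ[ℚ] Kb, L.map σ = L) ∧
      ∀ σ : GQ, (∀ a ∈ L, σ a = a) → ∀ w ∈ orbitSpan ρ v, ρ σ w = w := by
  obtain ⟨L, hfin, -, hst, h⟩ := exists_normal_level_ge hv ⊥
  exact ⟨L, hfin, hst, h⟩

end Rep

section Tensor

variable {R M k : Type*} [CommRing R] [AddCommGroup M] [Module R M] [Field k] [Algebra R k]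
  (r : GQ →* Module.End R M) (ρ : GQ →* Module.End k (k ⊗[R] M))

/-- Base change: if every `m : M` has finite level, so has every vector of `k ⊗[R] M`. -/
theorem hasFiniteLevelRep_tmul
    (hρ : ∀ (σ : GQ) (c : k) (m : M), ρ σ (c ⊗ₜ[R] m) = c ⊗ₜ[R] (r σ m))
    (hM : ∀ m : M, ∃ L : IntermediateField ℚ Kb, FiniteDimensional ℚ L ∧
      ∀ σ : GQ, (∀ a ∈ L, σ a = a) → r σ m = m)
    (v : k ⊗[R] M) : HasFiniteLevelRep ρ v := by
  induction v using TensorProduct.induction_on with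
  | zero => exact HasFiniteLevelRep.zero
  | tmul c m =>
    obtain ⟨L, hfin, hfix⟩ := hM m
    exact ⟨L, hfin, fun σ hσ => by rw [hρ, hfix σ hσ]⟩
  | add x y hx hy => exact hx.add hy

end Tensor

section JZero

variable (N : ℕ) [NeZero N] (p : ℕ)

/-- The `p`-torsion classes of `J₀(N)(ℚ̄)` have finite level. -/
theorem hasFiniteLevel_torsion
    (x : Pic0.torsion Kb (modularFunctionFieldBar N) p) :
    ∃ L : IntermediateField ℚ Kb, FiniteDimensional ℚ L ∧
      ∀ σ : GQ, (∀ a ∈ L, σ a = a) → JZero.torsionGaloisRep N p σ x = x := by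
  obtain ⟨L, hfin, -, hfix⟩ := Fermat.Agent.S29.OpenStab.exists_fixing_pic0 N (x : JZero N)
  refine ⟨L, hfin, fun σ hσ => Subtype.ext ?_⟩
  rw [JZero.coe_torsionGaloisRep_apply]
  exact hfix σ hσ

variable {k : Type*} [Field k] [Algebra (ZMod p) k]

/-- **(C3)**: every vector of `k ⊗[ZMod p] J₀(N)[p]` lies in a finite-dimensional Galois-stable
subspace on which `G_ℚ` acts through `Gal(L/ℚ)`, `L/ℚ` finite normal containing a prescribed
number field `L0`. -/
theorem exists_stable_finite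
    (ρ : GQ →* Module.End k (k ⊗[ZMod p] Pic0.torsion Kb (modularFunctionFieldBar N) p))
    (hρ : ∀ (σ : GQ) (c : k) (x : Pic0.torsion Kb (modularFunctionFieldBar N) p),
      ρ σ (c ⊗ₜ[ZMod p] x) = c ⊗ₜ[ZMod p] (JZero.torsionGaloisRep N p σ x))
    (L0 : IntermediateField ℚ Kb) [FiniteDimensional ℚ L0]
    (v : k ⊗[ZMod p] Pic0.torsion Kb (modularFunctionFieldBar N) p) :
    ∃ W : Submodule k (k ⊗[ZMod p] Pic0.torsion Kb (modularFunctionFieldBar N) p),
      v ∈ W ∧ FiniteDimensional k W ∧ (∀ σ : GQ, W ≤ W.comap (ρ σ)) ∧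
      ∃ L : IntermediateField ℚ Kb, FiniteDimensional ℚ L ∧ L0 ≤ L ∧
        (∀ σ : Kb →ₐ[ℚ] Kb, L.map σ = L) ∧
        ∀ σ : GQ, (∀ a ∈ L, σ a = a) → ∀ w ∈ W, ρ σ w = w := by
  have hv : HasFiniteLevelRep ρ v :=
    hasFiniteLevelRep_tmul (JZero.torsionGaloisRep N p) ρ hρ (hasFiniteLevel_torsion N p) v
  exact ⟨orbitSpan ρ v, mem_orbitSpan_self ρ v, finiteDimensional_orbitSpan hv,
    orbitSpan_stable ρ v, exists_normal_level_ge hv L0⟩

end JZero

end Fermat.Agent.S29.FiniteLevel
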