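import Mathlib
import Fermat.Prelude.Def_ModularCurve_HeckeModule
import Fermat.Agent.S37.Galois.DivisorAction

/-!
# S29 (R2-glue, leaf GH): Galois commutes with the Hecke operators on `J₀(N)`

* `heckeOperatorAlong_smul` : `σ • T_ℓ x = T_ℓ (σ • x)` for the total Hecke operator
  `heckeOperatorAlong L N ℓ` on `Pic⁰` (both branches of its definition);
* `heckeOperatorBar_smul` : the same for `heckeOperatorBar N ℓ` on `JZero N`;
* `heckeEvalBar_smul`, `heckeModuleBar_smul_comm`, `smulCommClass_heckeModuleBar` : Galois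
  commutes with the whole `HeckeAlg`-module structure `heckeModuleBar N` (unconditionally).
-/

set_option autoImplicit false

noncomputable section

open AlgebraicCurve ModularCurve

namespace Fermat.Agent.S29.GaloisHecke

section Along

variable {L : Type*} [Field L] [Algebra ℚ L] (N ℓ : ℕ) [NeZero N] [NeZero ℓ]

/-- **Galois commutes with the total Hecke operator on `Pic⁰`.** -/
theorem heckeOperatorAlong_smul (σ : L ≃ₐ[ℚ] L)
    (x : Pic0 L (laurentBaseChange L (modularFunctionFieldFull N))) :
    σ • heckeOperatorAlong L N ℓ x = heckeOperatorAlong L N ℓ (σ • x) := by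
  by_cases h : HeckeInputsAlong L N ℓ
  · obtain ⟨hα, hβ, hP, hfin, hFI, hN⟩ := h
    rw [heckeOperatorAlong_eq hα hβ hFI hfin hN]
    exact Fermat.Agent.S37.Galois.heckePic0Bar_smul hα hβ hFI hfin hN σ x
  · rw [heckeOperatorAlong_of_not h, AddMonoidHom.zero_apply, AddMonoidHom.zero_apply, smul_zero]

end Along

section Bar

variable (N : ℕ) [NeZero N]

/-- **Galois commutes with `heckeOperatorBar`.** -/
theorem heckeOperatorBar_smul (ℓ : Nat.Primes)
    (σ : AlgebraicClosure ℚ ≃ₐ[ℚ] AlgebraicClosure ℚ) (x : JZero N) :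
    σ • heckeOperatorBar N ℓ x = heckeOperatorBar N ℓ (σ • x) := by
  have : NeZero (ℓ : ℕ) := ⟨ℓ.2.ne_zero⟩
  rw [heckeOperatorBar_apply, heckeOperatorBar_apply]
  exact heckeOperatorAlong_smul N ℓ σ x

variable {N}

omit [NeZero N] in
theorem galois_smul_zsmul (σ : AlgebraicClosure ℚ ≃ₐ[ℚ] AlgebraicClosure ℚ) (a : ℤ)
    (x : JZero N) : σ • (a • x) = a • (σ • x) :=
  map_zsmul (DistribSMul.toAddMonoidHom (JZero N) σ) a x

omit [NeZero N] in
/-- the `ℤ`-endomorphisms of `JZero N` commuting with `σ` -/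
def commSubalgebra (σ : AlgebraicClosure ℚ ≃ₐ[ℚ] AlgebraicClosure ℚ) :
    Subalgebra ℤ (Module.End ℤ (JZero N)) where
  carrier := {f | ∀ x : JZero N, σ • f x = f (σ • x)}
  mul_mem' := by
    intro f g hf hg x
    rw [Module.End.mul_apply, Module.End.mul_apply, hf, hg]
  one_mem' := fun x => rfl
  add_mem' := by
    intro f g hf hg x
    rw [LinearMap.add_apply, LinearMap.add_apply, smul_add, hf, hg]
  zero_mem' := fun x => by rw [LinearMap.zero_apply, LinearMap.zero_apply, smul_zero]
  algebraMap_mem' := by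
    intro a x
    rw [Algebra.algebraMap_eq_smul_one, LinearMap.smul_apply, LinearMap.smul_apply,
      Module.End.one_apply, Module.End.one_apply, galois_smul_zsmul]

omit [NeZero N] in
theorem mem_commSubalgebra {σ : AlgebraicClosure ℚ ≃ₐ[ℚ] AlgebraicClosure ℚ}
    {f : Module.End ℤ (JZero N)} :
    f ∈ commSubalgebra (N := N) σ ↔ ∀ x : JZero N, σ • f x = f (σ • x) := Iff.rfl

/-- Galois commutes with every element of the Hecke algebra acting through `heckeEvalBar`. -/
theorem heckeEvalBar_smul (h : HeckeOperatorsCommuteBar N) (t : HeckeAlg)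
    (σ : AlgebraicClosure ℚ ≃ₐ[ℚ] AlgebraicClosure ℚ) (x : JZero N) :
    σ • heckeEvalBar h t x = heckeEvalBar h t (σ • x) := by
  have hle : Algebra.adjoin ℤ (Set.range (heckeOperatorBar N)) ≤ commSubalgebra (N := N) σ := by
    rw [Algebra.adjoin_le_iff]
    rintro _ ⟨ℓ, rfl⟩
    exact fun x => heckeOperatorBar_smul N ℓ σ x
  have hmem : heckeEvalBar h t ∈ commSubalgebra (N := N) σ := by
    rw [heckeEvalBar_apply]
    exact hle (heckeEvalBarAux h t).2
  exact hmem x

/-- **Galois commutes with the `HeckeAlg`-module structure `heckeModuleBar N`** -/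
theorem heckeModuleBar_smul_comm (σ : AlgebraicClosure ℚ ≃ₐ[ℚ] AlgebraicClosure ℚ)
    (t : HeckeAlg) (x : JZero N) :
    (letI := heckeModuleBar N; σ • t • x = t • σ • x) := by
  by_cases h : HeckeOperatorsCommuteBar N
  · rw [heckeModuleBar_smul_def h, heckeModuleBar_smul_def h]
    exact heckeEvalBar_smul h t σ x
  · rw [heckeModuleBar_smul_of_not h, heckeModuleBar_smul_of_not h, galois_smul_zsmul]

variable (N)

/-- the hypothesis `inst` of the frozen S37, unconditionally -/
theorem smulCommClass_heckeModuleBar :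
    (letI := heckeModuleBar N
     SMulCommClass (AlgebraicClosure ℚ ≃ₐ[ℚ] AlgebraicClosure ℚ) HeckeAlg (JZero N)) :=
  letI := heckeModuleBar N
  ⟨fun σ t x => heckeModuleBar_smul_comm σ t x⟩

end Bar

end Fermat.Agent.S29.GaloisHecke
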