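import Mathlib

/-!
# S29 (block R2): from a quadratic relation with multiplicative constant term to a 2-dimensional
representation

`k` an algebraically closed field, `G` a group, `ρ : G →* End k V` a representation on a nonzero
finite-dimensional space, `χ : G →* kˣ` a character, such that every `g` satisfies
`ρ g ^ 2 - t • ρ g + χ g = 0` on `V` for some scalar `t` (depending on `g`).

* `cross` : `ρ g * ρ h + ρ h * ρ g = t_h • ρ g + t_g • ρ h + c • 1`;
* `finrank_le_two` : a simple such representation has dimension `≤ 2`;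
* `exists_twoDim` : there is a representation `ρ'` on `Fin 2 → k`, trivial on `ker ρ ∩ ker χ`, with
  `charpoly (ρ' g) = X ^ 2 - t X + χ g` whenever `ρ g ^ 2 - t • ρ g + χ g = 0` on `V`.
-/

set_option autoImplicit false

open Polynomial Module

namespace Fermat.Agent.S29.TwoDim

variable {k : Type*} [Field k] {G : Type*} [Group G]
  {V : Type*} [AddCommGroup V] [Module k V]

/-- the quadratic relation for one element. -/
def QuadAt (ρ : G →* Module.End k V) (χ : G →* kˣ) (g : G) (t : k) : Prop :=
  ρ g * ρ g - t • ρ g + ((χ g : kˣ) : k) • (1 : Module.End k V) = 0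

/-- stability of a submodule. -/
def Stable (ρ : G →* Module.End k V) (W : Submodule k V) : Prop :=
  ∀ g : G, ∀ w ∈ W, ρ g w ∈ W

section Basic

variable (ρ : G →* Module.End k V) (χ : G →* kˣ)

theorem rho_inv_mul (g : G) : ρ g⁻¹ * ρ g = 1 := by
  rw [← map_mul, inv_mul_cancel, map_one]

theorem rho_mul_inv (g : G) : ρ g * ρ g⁻¹ = 1 := by
  rw [← map_mul, mul_inv_cancel, map_one]

/-- `χ(g) g⁻¹ = t - g`. -/
theorem inv_eq {g : G} {t : k} (h : QuadAt ρ χ g t) :
    ((χ g : kˣ) : k) • ρ g⁻¹ = t • (1 : Module.End k V) - ρ g := by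
  have h1 : ρ g⁻¹ * (ρ g * ρ g - t • ρ g + ((χ g : kˣ) : k) • (1 : Module.End k V)) = 0 := by
    rw [h, mul_zero]
  rw [mul_add, mul_sub, ← mul_assoc, rho_inv_mul, one_mul, mul_smul_comm, rho_inv_mul,
    mul_smul_comm, mul_one] at h1
  rw [← sub_eq_zero]
  rw [← h1]
  abel

/-- **the cross relation**. -/
theorem cross {g h : G} {tg th tgh : k} (hg : QuadAt ρ χ g tg) (hh : QuadAt ρ χ h th)
    (hgh : QuadAt ρ χ (g * h) tgh) :
    ρ g * ρ h + ρ h * ρ g = th • ρ g + tg • ρ h + (tgh - tg * th) • (1 : Module.End k V) := by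
  have e1 := inv_eq ρ χ hg
  have e2 := inv_eq ρ χ hh
  have e3 := inv_eq ρ χ hgh
  have e4 : ((χ (g * h) : kˣ) : k) • ρ (g * h)⁻¹ =
      (((χ h : kˣ) : k) • ρ h⁻¹) * (((χ g : kˣ) : k) • ρ g⁻¹) := by
    rw [mul_inv_rev, map_mul, map_mul, Units.val_mul, smul_mul_smul_comm, mul_comm]
  rw [e3, e1, e2, map_mul] at e4
  have e5 : (th • (1 : Module.End k V) - ρ h) * (tg • (1 : Module.End k V) - ρ g) =
      (tg * th) • (1 : Module.End k V) - th • ρ g - tg • ρ h + ρ h * ρ g := by
    simp only [sub_mul, mul_sub, smul_mul_assoc, mul_smul_comm, one_mul, mul_one, smul_sub,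
      smul_smul]
    abel
  rw [e5] at e4
  have e6 : ρ g * ρ h + ρ h * ρ g - (th • ρ g + tg • ρ h + (tgh - tg * th) • (1 : Module.End k V))
      = 0 := by
    rw [sub_smul]
    have : tgh • (1 : Module.End k V) = ρ g * ρ h + ((tg * th) • (1 : Module.End k V) - th • ρ g
        - tg • ρ h + ρ h * ρ g) := by
      rw [← e4]; abel
    rw [this]
    abel
  exact sub_eq_zero.mp e6

end Basic

/-! ### simple representations have dimension `≤ 2` -/

section Simple

variable (ρ : G →* Module.End k V) (χ : G →* kˣ)

/-- the span of the orbit of a vector. -/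
def orbitSpan (v : V) : Submodule k V := Submodule.span k (Set.range fun h : G => ρ h v)

theorem mem_orbitSpan (v : V) : v ∈ orbitSpan ρ v :=
  Submodule.subset_span ⟨1, by show ρ 1 v = v; rw [map_one]; rfl⟩

theorem stable_orbitSpan (v : V) : Stable ρ (orbitSpan ρ v) := by
  intro g w hw
  induction hw using Submodule.span_induction with
  | mem x hx =>
    obtain ⟨h, rfl⟩ := hx
    apply Submodule.subset_span
    exact ⟨g * h, by show ρ (g * h) v = ρ g (ρ h v); rw [map_mul]; rfl⟩
  | zero => rw [map_zero]; exact zero_mem _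
  | add x y _ _ hx hy => rw [map_add]; exact add_mem hx hy
  | smul c x _ hx => rw [map_smul]; exact Submodule.smul_mem _ _ hx

variable (hq : ∀ g, ∃ t, QuadAt ρ χ g t)
  (hs : ∀ W : Submodule k V, Stable ρ W → W = ⊥ ∨ W = ⊤)

include hs in
theorem orbitSpan_eq_top {v : V} (hv : v ≠ 0) : orbitSpan ρ v = ⊤ := by
  rcases hs _ (stable_orbitSpan ρ v) with h | h
  · exfalso
    apply hv
    have h1 : v ∈ orbitSpan ρ v := mem_orbitSpan ρ v
    rw [h] at h1
    exact (Submodule.mem_bot k).mp h1
  · exact h

include hq hs in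
/-- **key lemma**: if `v` is an eigenvector of `ρ g` for the root `α`, then `ρ g` acts on `V / k v`
as the other root `t - α`. -/
theorem sub_mem_span {g : G} {t α : k} (hg : QuadAt ρ χ g t) {v : V} (hv : v ≠ 0)
    (hgv : ρ g v = α • v) (w : V) : ρ g w - (t - α) • w ∈ Submodule.span k {v} := by
  have hw : w ∈ orbitSpan ρ v := by rw [orbitSpan_eq_top ρ hs hv]; trivial
  induction hw using Submodule.span_induction with
  | mem x hx =>
    obtain ⟨h, rfl⟩ := hx
    obtain ⟨th, hh⟩ := hq h
    obtain ⟨tgh, hgh⟩ := hq (g * h)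
    have hc := congrArg (fun f : Module.End k V => f v) (cross ρ χ hg hh hgh)
    simp only [LinearMap.add_apply, Module.End.mul_apply, LinearMap.smul_apply,
      Module.End.one_apply, hgv, map_smul] at hc
    show ρ g (ρ h v) - (t - α) • ρ h v ∈ Submodule.span k {v}
    have e : ρ g (ρ h v) - (t - α) • ρ h v = (th * α + (tgh - t * th)) • v := by
      rw [sub_smul, add_smul, mul_smul]
      have hc' : ρ g (ρ h v) = th • α • v + t • (ρ h) v + (tgh - t * th) • v - α • (ρ h) v :=
        eq_sub_of_add_eq hc
      rw [hc']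
      abel
    rw [e]
    exact Submodule.smul_mem _ _ (Submodule.mem_span_singleton_self v)
  | zero => simp
  | add x y _ _ hx hy =>
    have e : ρ g (x + y) - (t - α) • (x + y) =
        (ρ g x - (t - α) • x) + (ρ g y - (t - α) • y) := by
      rw [map_add, smul_add]; abel
    rw [e]; exact add_mem hx hy
  | smul c x _ hx =>
    have e : ρ g (c • x) - (t - α) • (c • x) = c • (ρ g x - (t - α) • x) := by
      rw [map_smul, smul_sub, smul_comm]
    rw [e]; exact Submodule.smul_mem _ _ hx

end Simple

section Dim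

omit [Group G] in
theorem finrank_span_singleton_le' (v : V) :
    Module.finrank k (Submodule.span k {v}) ≤ 1 := by
  have h := finrank_span_le_card (R := k) ({v} : Set V)
  simpa using h

variable [FiniteDimensional k V] (ρ : G →* Module.End k V) (χ : G →* kˣ)
  (hq : ∀ g, ∃ t, QuadAt ρ χ g t)
  (hs : ∀ W : Submodule k V, Stable ρ W → W = ⊥ ∨ W = ⊤)

omit [FiniteDimensional k V] in
/-- an endomorphism whose range lies in a line has a kernel of codimension `≤ 1`. -/
theorem finrank_ker_ge [FiniteDimensional k V] (f : Module.End k V) (v : V)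
    (hf : ∀ w, f w ∈ Submodule.span k {v}) :
    Module.finrank k V ≤ Module.finrank k (LinearMap.ker f) + 1 := by
  have h1 := LinearMap.finrank_range_add_finrank_ker f
  have h2 : LinearMap.range f ≤ Submodule.span k {v} := by
    rintro _ ⟨w, rfl⟩; exact hf w
  have h3 : Module.finrank k (LinearMap.range f) ≤ 1 :=
    (Submodule.finrank_mono h2).trans (finrank_span_singleton_le' v)
  omega

include hq hs in
/-- kernel of `ρ g - (t - α)` for an eigenvector of eigenvalue `α`. -/
theorem finrank_ker_other {g : G} {t α : k} (hg : QuadAt ρ χ g t) {v : V} (hv : v ≠ 0)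
    (hgv : ρ g v = α • v) :
    Module.finrank k V ≤
      Module.finrank k (LinearMap.ker (ρ g - (t - α) • (1 : Module.End k V))) + 1 :=
  finrank_ker_ge _ v fun w => by
    rw [LinearMap.sub_apply, LinearMap.smul_apply, Module.End.one_apply]
    exact sub_mem_span ρ χ hq hs hg hv hgv w

include hq hs in
/-- **a simple representation with the quadratic relations has dimension `≤ 2`**. -/
theorem finrank_le_two [IsAlgClosed k] [Nontrivial V] : Module.finrank k V ≤ 2 := by
  by_contra hn
  push Not at hn
  -- a non-scalar element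
  have hns : ∃ g, ∀ c : k, ρ g ≠ c • (1 : Module.End k V) := by
    by_contra hall
    push Not at hall
    obtain ⟨v, hv⟩ := exists_ne (0 : V)
    have hst : Stable ρ (Submodule.span k {v}) := by
      intro g w hw
      obtain ⟨c, hc⟩ := hall g
      rw [hc, LinearMap.smul_apply, Module.End.one_apply]
      exact Submodule.smul_mem _ _ hw
    rcases hs _ hst with h | h
    · apply hv
      have h1 : v ∈ Submodule.span k {v} := Submodule.mem_span_singleton_self v
      rw [h] at h1
      exact (Submodule.mem_bot k).mp h1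
    · have h1 : Module.finrank k (⊤ : Submodule k V) ≤ 1 := by
        rw [← h]; exact finrank_span_singleton_le' v
      rw [finrank_top] at h1
      omega
  obtain ⟨g, hgns⟩ := hns
  obtain ⟨t, ht⟩ := hq g
  obtain ⟨α, hα⟩ := Module.End.exists_eigenvalue (ρ g)
  obtain ⟨v, hv⟩ := hα.exists_hasEigenvector
  have hv0 : v ≠ 0 := hv.2
  have hgv : ρ g v = α • v := hv.apply_eq_smul
  have hk1 := finrank_ker_other ρ χ hq hs ht hv0 hgv
  by_cases hαα : t - α = α
  · -- double root
    rw [hαα] at hk1
    set K := LinearMap.ker (ρ g - α • (1 : Module.End k V)) with hK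
    have hK2 : 2 ≤ Module.finrank k K := by omega
    have hex : ∃ v' ∈ K, v' ∉ Submodule.span k {v} := by
      by_contra hno
      push Not at hno
      have hle : K ≤ Submodule.span k {v} := hno
      have := (Submodule.finrank_mono hle).trans (finrank_span_singleton_le' v)
      omega
    obtain ⟨v', hv'K, hv'⟩ := hex
    have hv'0 : v' ≠ 0 := by
      rintro rfl; exact hv' (zero_mem _)
    have hgv' : ρ g v' = α • v' := by
      have := LinearMap.mem_ker.mp hv'K
      rw [LinearMap.sub_apply, LinearMap.smul_apply, Module.End.one_apply, sub_eq_zero] at this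
      exact this
    apply hgns α
    ext w
    rw [LinearMap.smul_apply, Module.End.one_apply]
    have h1 := sub_mem_span ρ χ hq hs ht hv0 hgv w
    have h2 := sub_mem_span ρ χ hq hs ht hv'0 hgv' w
    rw [hαα] at h1 h2
    obtain ⟨a, ha⟩ := Submodule.mem_span_singleton.mp h1
    obtain ⟨b, hb⟩ := Submodule.mem_span_singleton.mp h2
    by_cases hb0 : b = 0
    · rw [hb0, zero_smul] at hb
      exact (sub_eq_zero.mp hb.symm)
    · exfalso
      apply hv'
      have : v' = (b⁻¹ * a) • v := by
        rw [mul_smul, ha, ← hb, smul_smul, inv_mul_cancel₀ hb0, one_smul]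
      rw [this]
      exact Submodule.smul_mem _ _ (Submodule.mem_span_singleton_self v)
  · -- two distinct roots
    set K' := LinearMap.ker (ρ g - (t - α) • (1 : Module.End k V)) with hK'
    have hK'pos : 0 < Module.finrank k K' := by omega
    obtain ⟨w, hw0⟩ := (Module.finrank_pos_iff_exists_ne_zero (R := k) (M := K')).mp hK'pos
    have hwV : (w : V) ≠ 0 := fun h => hw0 (Subtype.ext h)
    have hgw : ρ g (w : V) = (t - α) • (w : V) := by
      have := LinearMap.mem_ker.mp w.2
      rw [LinearMap.sub_apply, LinearMap.smul_apply, Module.End.one_apply, sub_eq_zero] at this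
      exact this
    have hk2 := finrank_ker_other ρ χ hq hs ht hwV hgw
    rw [sub_sub_cancel] at hk2
    set K := LinearMap.ker (ρ g - α • (1 : Module.End k V)) with hK
    have hdisj : K ⊓ K' = ⊥ := by
      rw [eq_bot_iff]
      rintro x ⟨hx1, hx2⟩
      have e1 := LinearMap.mem_ker.mp hx1
      have e2 := LinearMap.mem_ker.mp hx2
      rw [LinearMap.sub_apply, LinearMap.smul_apply, Module.End.one_apply, sub_eq_zero] at e1 e2
      rw [e1] at e2
      have e3 : (α - (t - α)) • x = 0 := by rw [sub_smul, e2, sub_self]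
      rcases smul_eq_zero.mp e3 with h | h
      · exact absurd (sub_eq_zero.mp h).symm hαα
      · exact (Submodule.mem_bot k).mpr h
    have hsum := Submodule.finrank_sup_add_finrank_inf_eq K K'
    rw [hdisj, finrank_bot, add_zero] at hsum
    have hle : Module.finrank k ↥(K ⊔ K') ≤ Module.finrank k V := Submodule.finrank_le _
    omega

end Dim

/-! ### matrix level: the characteristic polynomial in dimension 2 -/

section Mat

/-- the quadratic relation for a matrix-valued representation. -/
def QuadMat {n : Type*} [Fintype n] [DecidableEq n] (M : G →* Matrix n n k) (χ : G →* kˣ)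
    (g : G) (t : k) : Prop :=
  M g * M g - t • M g + ((χ g : kˣ) : k) • (1 : Matrix n n k) = 0

omit [Group G] in
/-- Cayley–Hamilton for `2 × 2` matrices. -/
theorem cayley_two (N : Matrix (Fin 2) (Fin 2) k) :
    N * N - N.trace • N + N.det • (1 : Matrix (Fin 2) (Fin 2) k) = 0 := by
  have h := Matrix.aeval_self_charpoly N
  rw [Matrix.charpoly_fin_two] at h
  simpa [pow_two, Algebra.smul_def] using h

omit [Group G] in
theorem smul_one_ne_zero' {c : k} (hc : c ≠ 0) :
    c • (1 : Matrix (Fin 2) (Fin 2) k) ≠ 0 := by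
  intro h
  have := congrFun (congrFun h 0) 0
  simp at this
  exact hc this

variable (M : G →* Matrix (Fin 2) (Fin 2) k) (χ : G →* kˣ)

/-- a non-scalar matrix satisfying `N² - t N + d = 0` has trace `t` and determinant `d`. -/
theorem trace_det_of_nonscalar {g : G} {t : k} (hg : QuadMat M χ g t)
    (hns : ∀ c : k, M g ≠ c • (1 : Matrix (Fin 2) (Fin 2) k)) :
    (M g).trace = t ∧ (M g).det = ((χ g : kˣ) : k) := by
  have hc := cayley_two (M g)
  have key : ((M g).trace - t) • M g = ((M g).det - ((χ g : kˣ) : k)) •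
      (1 : Matrix (Fin 2) (Fin 2) k) := by
    unfold QuadMat at hg
    have : ((M g).trace - t) • M g - ((M g).det - ((χ g : kˣ) : k)) •
        (1 : Matrix (Fin 2) (Fin 2) k) = 0 := by
      rw [sub_smul, sub_smul]
      calc (M g).trace • M g - t • M g - ((M g).det • (1 : Matrix (Fin 2) (Fin 2) k) -
            ((χ g : kˣ) : k) • (1 : Matrix (Fin 2) (Fin 2) k))
          = (M g * M g - t • M g + ((χ g : kˣ) : k) • (1 : Matrix (Fin 2) (Fin 2) k)) -
            (M g * M g - (M g).trace • M g + (M g).det • (1 : Matrix (Fin 2) (Fin 2) k)) := by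
            abel
        _ = 0 := by rw [hg, hc, sub_zero]
    exact sub_eq_zero.mp this
  have htr : (M g).trace = t := by
    by_contra hne
    have hne' : (M g).trace - t ≠ 0 := sub_ne_zero.mpr hne
    apply hns (((M g).trace - t)⁻¹ * ((M g).det - ((χ g : kˣ) : k)))
    rw [mul_smul, ← key, smul_smul, inv_mul_cancel₀ hne', one_smul]
  refine ⟨htr, ?_⟩
  rw [htr, sub_self, zero_smul] at key
  by_contra hne
  exact smul_one_ne_zero' (sub_ne_zero.mpr hne) key.symm

/-- **the characteristic polynomial in dimension 2**: if some element is non-scalar, every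
quadratic relation is the characteristic polynomial. -/
theorem charpoly_of_quadMat (hq : ∀ g, ∃ t, QuadMat M χ g t)
    (hns : ∃ h, ∀ c : k, M h ≠ c • (1 : Matrix (Fin 2) (Fin 2) k))
    {g : G} {t : k} (hg : QuadMat M χ g t) :
    (M g).charpoly = X ^ 2 - C t * X + C ((χ g : kˣ) : k) := by
  rw [Matrix.charpoly_fin_two]
  by_cases hsc : ∀ c : k, M g ≠ c • (1 : Matrix (Fin 2) (Fin 2) k)
  · obtain ⟨h1, h2⟩ := trace_det_of_nonscalar M χ hg hsc
    rw [h1, h2]
  · push Not at hsc
    obtain ⟨c, hc⟩ := hsc
    obtain ⟨h, hh⟩ := hns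
    -- `c ≠ 0`
    have hc0 : c ≠ 0 := by
      rintro rfl
      rw [zero_smul] at hc
      have h1 : M g * M g⁻¹ = 1 := by rw [← map_mul, mul_inv_cancel, map_one]
      rw [hc, zero_mul] at h1
      exact zero_ne_one h1
    -- `g * h` is non-scalar
    have hgh : ∀ c' : k, M (g * h) ≠ c' • (1 : Matrix (Fin 2) (Fin 2) k) := by
      intro c' hc'
      apply hh (c⁻¹ * c')
      rw [map_mul, hc, smul_mul_assoc, one_mul] at hc'
      rw [mul_smul, ← hc', smul_smul, inv_mul_cancel₀ hc0, one_smul]
    obtain ⟨tgh, hqgh⟩ := hq (g * h)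
    obtain ⟨th, hqh⟩ := hq h
    have d1 := (trace_det_of_nonscalar M χ hqgh hgh).2
    have d2 := (trace_det_of_nonscalar M χ hqh hh).2
    rw [map_mul, hc, smul_mul_assoc, one_mul, Matrix.det_smul, d2, Fintype.card_fin, map_mul,
      Units.val_mul] at d1
    have hχh : ((χ h : kˣ) : k) ≠ 0 := (χ h).ne_zero
    have hc2 : c ^ 2 = ((χ g : kˣ) : k) := mul_right_cancel₀ hχh d1
    -- the relation for `g`
    have hrel : c ^ 2 - t * c + ((χ g : kˣ) : k) = 0 := by
      unfold QuadMat at hg
      rw [hc, smul_mul_smul_comm, one_mul, smul_smul, ← sub_smul, ← add_smul] at hg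
      by_contra hne
      exact smul_one_ne_zero' hne (by rw [← hg]; ring_nf)
    have ht : t = 2 * c := by
      have : c * (2 * c - t) = 0 := by
        rw [← hc2] at hrel
        linear_combination hrel
      rcases mul_eq_zero.mp this with h0 | h0
      · exact absurd h0 hc0
      · exact (sub_eq_zero.mp h0).symm
    have htr : (M g).trace = t := by
      rw [hc, Matrix.trace_smul, Matrix.trace_one, Fintype.card_fin, ht]
      simp [mul_comm]
    have hdet : (M g).det = ((χ g : kˣ) : k) := by
      rw [hc, Matrix.det_smul, Matrix.det_one, Fintype.card_fin, mul_one, hc2]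
    rw [htr, hdet]

end Mat

/-! ### minimal stable subspaces and restriction -/

section Restrict

variable (ρ : G →* Module.End k V) (χ : G →* kˣ)

/-- the restriction of `ρ` to a stable submodule. -/
def restrictRep (W : Submodule k V) (hW : Stable ρ W) : G →* Module.End k W where
  toFun g := (ρ g).restrict (hW g)
  map_one' := by
    ext w
    simp [LinearMap.restrict_apply]
  map_mul' g h := by
    ext w
    simp [LinearMap.restrict_apply]

@[simp] theorem coe_restrictRep (W : Submodule k V) (hW : Stable ρ W) (g : G) (w : W) :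
    ((restrictRep ρ W hW g w : W) : V) = ρ g (w : V) := rfl

theorem quadAt_restrict (W : Submodule k V) (hW : Stable ρ W) {g : G} {t : k}
    (h : QuadAt ρ χ g t) : QuadAt (restrictRep ρ W hW) χ g t := by
  unfold QuadAt at h ⊢
  ext w
  have h1 := congrArg (fun f : Module.End k V => f (w : V)) h
  simpa using h1

theorem restrictRep_eq_one (W : Submodule k V) (hW : Stable ρ W) {g : G} (h : ρ g = 1) :
    restrictRep ρ W hW g = 1 := by
  ext w
  simp [h]

/-- a minimal nonzero stable submodule. -/
theorem exists_minimal_stable [FiniteDimensional k V] [Nontrivial V] :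
    ∃ W : Submodule k V, Stable ρ W ∧ W ≠ ⊥ ∧
      ∀ W' : Submodule k V, Stable ρ W' → W' ≤ W → W' = ⊥ ∨ W' = W := by
  classical
  let P : ℕ → Prop := fun n => ∃ W : Submodule k V, Stable ρ W ∧ W ≠ ⊥ ∧ Module.finrank k W = n
  have hP : ∃ n, P n := ⟨_, ⊤, fun _ _ _ => trivial, top_ne_bot, rfl⟩
  obtain ⟨W, hW, hW0, hWn⟩ := Nat.find_spec hP
  refine ⟨W, hW, hW0, fun W' hW' hle => ?_⟩
  by_cases h0 : W' = ⊥
  · exact Or.inl h0
  · right
    have hmin : Nat.find hP ≤ Module.finrank k W' := Nat.find_min' hP ⟨W', hW', h0, rfl⟩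
    rw [← hWn] at hmin
    exact Submodule.eq_of_le_of_finrank_le hle hmin

/-- the restriction to a minimal stable submodule is simple. -/
theorem simple_restrict (W : Submodule k V) (hW : Stable ρ W)
    (hmin : ∀ W' : Submodule k V, Stable ρ W' → W' ≤ W → W' = ⊥ ∨ W' = W)
    (U : Submodule k W) (hU : Stable (restrictRep ρ W hW) U) : U = ⊥ ∨ U = ⊤ := by
  have hst : Stable ρ (U.map W.subtype) := by
    rintro g _ ⟨u, hu, rfl⟩
    exact ⟨restrictRep ρ W hW g u, hU g u hu, rfl⟩
  have hle : U.map W.subtype ≤ W := by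
    rintro _ ⟨u, _, rfl⟩
    exact u.2
  rcases hmin _ hst hle with h | h
  · left
    rw [eq_bot_iff]
    intro u hu
    have : W.subtype u ∈ U.map W.subtype := ⟨u, hu, rfl⟩
    rw [h] at this
    exact (Submodule.mem_bot k).mpr (Subtype.ext ((Submodule.mem_bot k).mp this))
  · right
    rw [eq_top_iff]
    intro u _
    have : (u : V) ∈ U.map W.subtype := by rw [h]; exact u.2
    obtain ⟨u', hu', he⟩ := this
    have : u' = u := Subtype.ext he
    rwa [this] at hu'

end Restrict

/-! ### the main construction -/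

section Main

variable (χ : G →* kˣ)

/-- transfer of the quadratic relation along an algebra isomorphism `End k W ≃ₐ Matrix n n k`. -/
theorem quadMat_of_algEquiv {n : Type*} [Fintype n] [DecidableEq n] {W : Type*} [AddCommGroup W]
    [Module k W] (σ : G →* Module.End k W) (e : Module.End k W ≃ₐ[k] Matrix n n k) {g : G} {t : k}
    (h : QuadAt σ χ g t) : QuadMat ((MonoidHomClass.toMonoidHom e).comp σ) χ g t := by
  unfold QuadAt at h
  unfold QuadMat
  have h1 := congrArg e h
  simpa [map_sub, map_add, map_mul, map_smul] using h1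

/-- in a simple representation of dimension `≥ 2` some element is not a scalar. -/
theorem exists_nonscalar [FiniteDimensional k V] [Nontrivial V] (ρ : G →* Module.End k V)
    (hs : ∀ W : Submodule k V, Stable ρ W → W = ⊥ ∨ W = ⊤) (h2 : 2 ≤ Module.finrank k V) :
    ∃ g, ∀ c : k, ρ g ≠ c • (1 : Module.End k V) := by
  by_contra hall
  push Not at hall
  obtain ⟨v, hv⟩ := exists_ne (0 : V)
  have hst : Stable ρ (Submodule.span k {v}) := by
    intro g w hw
    obtain ⟨c, hc⟩ := hall g
    rw [hc, LinearMap.smul_apply, Module.End.one_apply]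
    exact Submodule.smul_mem _ _ hw
  rcases hs _ hst with h | h
  · apply hv
    have h1 : v ∈ Submodule.span k {v} := Submodule.mem_span_singleton_self v
    rw [h] at h1
    exact (Submodule.mem_bot k).mp h1
  · have h1 : Module.finrank k (⊤ : Submodule k V) ≤ 1 := by
      rw [← h]; exact finrank_span_singleton_le' v
    rw [finrank_top] at h1
    omega

variable [IsAlgClosed k] [FiniteDimensional k V] [Nontrivial V]
  (ρ : G →* Module.End k V) (hq : ∀ g, ∃ t, QuadAt ρ χ g t)

include hq in
/-- **main theorem, matrix form**: a `2 × 2` matrix representation, trivial on `ker ρ ∩ ker χ`,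
whose characteristic polynomials are the quadratic relations satisfied on `V`. -/
theorem exists_matrixRep :
    ∃ M : G →* Matrix (Fin 2) (Fin 2) k,
      (∀ g, ρ g = 1 → χ g = 1 → M g = 1) ∧
      ∀ g t, QuadAt ρ χ g t → (M g).charpoly = X ^ 2 - C t * X + C ((χ g : kˣ) : k) := by
  obtain ⟨W, hW, hW0, hmin⟩ := exists_minimal_stable ρ
  set σ := restrictRep ρ W hW with hσ
  have hσq : ∀ g, ∃ t, QuadAt σ χ g t := fun g => by
    obtain ⟨t, ht⟩ := hq g
    exact ⟨t, quadAt_restrict ρ χ W hW ht⟩
  have hsimple := simple_restrict ρ W hW hmin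
  have : Nontrivial W := Submodule.nontrivial_iff_ne_bot.mpr hW0
  have hle2 : Module.finrank k W ≤ 2 := finrank_le_two σ χ hσq hsimple
  have hpos : 0 < Module.finrank k W := Module.finrank_pos
  by_cases h2 : Module.finrank k W = 2
  · -- dimension 2
    let b := Module.finBasisOfFinrankEq k W h2
    let e := LinearMap.toMatrixAlgEquiv b
    refine ⟨(MonoidHomClass.toMonoidHom e).comp σ, fun g hg _ => ?_, fun g t hgt => ?_⟩
    · show e (σ g) = 1
      rw [restrictRep_eq_one ρ W hW hg, map_one]
    · have hqM : ∀ g, ∃ t, QuadMat ((MonoidHomClass.toMonoidHom e).comp σ) χ g t := fun g => by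
        obtain ⟨t, ht⟩ := hσq g
        exact ⟨t, quadMat_of_algEquiv χ σ e ht⟩
      have hns : ∃ h, ∀ c : k, ((MonoidHomClass.toMonoidHom e).comp σ) h ≠
          c • (1 : Matrix (Fin 2) (Fin 2) k) := by
        obtain ⟨h, hh⟩ := exists_nonscalar σ hsimple (by omega)
        refine ⟨h, fun c hc => hh c ?_⟩
        apply e.injective
        rw [map_smul, map_one]
        exact hc
      exact charpoly_of_quadMat _ χ hqM hns
        (quadMat_of_algEquiv χ σ e (quadAt_restrict ρ χ W hW hgt))
  · -- dimension 1
    have h1 : Module.finrank k W = 1 := by omega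
    let b := Module.finBasisOfFinrankEq k W h1
    let e := LinearMap.toMatrixAlgEquiv b
    let N : G →* Matrix (Fin 1) (Fin 1) k := (MonoidHomClass.toMonoidHom e).comp σ
    let ψ₀ : G →* k :=
      { toFun := fun g => N g 0 0
        map_one' := by rw [map_one]; simp
        map_mul' := fun g h => by rw [map_mul, Matrix.mul_apply]; simp }
    let ψ : G →* kˣ := ψ₀.toHomUnits
    have hψ : ∀ g, ((ψ g : kˣ) : k) = N g 0 0 := fun g => rfl
    have hrel : ∀ g t, QuadAt ρ χ g t →
        ((ψ g : kˣ) : k) * ((ψ g : kˣ) : k) - t * ((ψ g : kˣ) : k) + ((χ g : kˣ) : k) = 0 := by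
      intro g t hgt
      have hm : QuadMat N χ g t := quadMat_of_algEquiv χ σ e (quadAt_restrict ρ χ W hW hgt)
      unfold QuadMat at hm
      have := congrFun (congrFun hm 0) 0
      simpa [Matrix.mul_apply, hψ] using this
    let d : G →* (Fin 2 → k) :=
      MonoidHom.pi (fun i => ![(Units.coeHom k).comp ψ, (Units.coeHom k).comp (χ * ψ⁻¹)] i)
    refine ⟨(Matrix.diagonalRingHom (Fin 2) k).toMonoidHom.comp d, fun g hg hχ => ?_,
      fun g t hgt => ?_⟩
    · show Matrix.diagonal (d g) = 1
      have hψ1 : ψ g = 1 := by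
        apply Units.ext
        rw [hψ]
        show e (σ g) 0 0 = _
        rw [restrictRep_eq_one ρ W hW hg, map_one]
        simp
      have hd : d g = 1 := by
        funext i
        fin_cases i
        · show ((ψ g : kˣ) : k) = 1
          rw [hψ1]; rfl
        · show (((χ * ψ⁻¹) g : kˣ) : k) = 1
          rw [MonoidHom.mul_apply, MonoidHom.inv_apply, hψ1, hχ]; simp
      rw [hd]
      exact Matrix.diagonal_one
    · show (Matrix.diagonal (d g)).charpoly = _
      rw [Matrix.charpoly_fin_two]
      have hd0 : d g 0 = ((ψ g : kˣ) : k) := rfl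
      have hd1 : d g 1 = ((χ g : kˣ) : k) * ((ψ g : kˣ) : k)⁻¹ := by
        show (((χ * ψ⁻¹) g : kˣ) : k) = _
        rw [MonoidHom.mul_apply, MonoidHom.inv_apply, Units.val_mul, Units.val_inv_eq_inv_val]
      have hψ0 : ((ψ g : kˣ) : k) ≠ 0 := (ψ g).ne_zero
      have hr := hrel g t hgt
      have htr : (Matrix.diagonal (d g)).trace = t := by
        rw [Matrix.trace_fin_two, Matrix.diagonal_apply_eq, Matrix.diagonal_apply_eq, hd0, hd1]
        field_simp
        linear_combination hr
      have hdet : (Matrix.diagonal (d g)).det = ((χ g : kˣ) : k) := by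
        rw [Matrix.det_diagonal, Fin.prod_univ_two, hd0, hd1]
        field_simp
      rw [htr, hdet]

end Main

section Final

variable [IsAlgClosed k] [FiniteDimensional k V] [Nontrivial V]
  (ρ : G →* Module.End k V) (χ : G →* kˣ) (hq : ∀ g, ∃ t, QuadAt ρ χ g t)

include hq in
/-- **main theorem, linear form**: a representation on `Fin 2 → k`, trivial on `ker ρ ∩ ker χ`,
with `charpoly (ρ' g) = X² - t X + χ g` whenever `ρ g ^ 2 - t • ρ g + χ g = 0` on `V`. -/
theorem exists_twoDim :
    ∃ ρ' : G →* Module.End k (Fin 2 → k),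
      (∀ g, ρ g = 1 → χ g = 1 → ρ' g = 1) ∧
      ∀ g t, QuadAt ρ χ g t →
        LinearMap.charpoly (ρ' g) = X ^ 2 - C t * X + C ((χ g : kˣ) : k) := by
  obtain ⟨M, hM1, hM2⟩ := exists_matrixRep χ ρ hq
  refine ⟨(MonoidHomClass.toMonoidHom (Matrix.toLinAlgEquiv' (R := k) (n := Fin 2))).comp M,
    fun g hg hχ => ?_, fun g t hgt => ?_⟩
  · show Matrix.toLinAlgEquiv' (M g) = 1
    rw [hM1 g hg hχ, map_one]
  · show LinearMap.charpoly (Matrix.toLinAlgEquiv' (M g)) = _
    rw [← hM2 g t hgt]
    exact Matrix.charpoly_toLin' (M g)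

end Final

/-! ### the quadratic relation passes to powers -/

section Powers

variable (ρ : G →* Module.End k V) (χ : G →* kˣ)

/-- the power sums `s_i = α^i + β^i` of the two roots of `X² - t X + d`. -/
def powSum (t d : k) : ℕ → k
  | 0 => 2
  | 1 => t
  | (n + 2) => t * powSum t d (n + 1) - d * powSum t d n

/-- if `g` satisfies `X² - t X + χ g`, then `g ^ i` satisfies `X² - s_i X + χ (g ^ i)`. -/
theorem quadAt_pow {g : G} {t : k} (h : QuadAt ρ χ g t) (i : ℕ) :
    QuadAt ρ χ (g ^ i) (powSum t ((χ g : kˣ) : k) i) := by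
  set f := ρ g with hf
  set d : k := ((χ g : kˣ) : k) with hd
  set f' : Module.End k V := t • (1 : Module.End k V) - f with hf'
  have hff' : f * f' = d • (1 : Module.End k V) := by
    unfold QuadAt at h
    rw [hf', mul_sub, mul_smul_comm, mul_one]
    rw [← sub_eq_zero]
    rw [← neg_eq_zero, ← h]
    abel
  have hcomm : f' * f = f * f' := by
    rw [hf', sub_mul, mul_sub, smul_mul_assoc, mul_smul_comm, one_mul, mul_one]
  have hcomm' : Commute f f' := hcomm.symm
  have hsum : f + f' = t • (1 : Module.End k V) := by rw [hf']; abel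
  -- `f ^ i + f' ^ i = s_i`
  have key : ∀ n, f ^ n + f' ^ n = powSum t d n • (1 : Module.End k V) ∧
      f ^ (n + 1) + f' ^ (n + 1) = powSum t d (n + 1) • (1 : Module.End k V) := by
    intro n
    induction n with
    | zero =>
      refine ⟨?_, ?_⟩
      · simp only [pow_zero, powSum]
        rw [← one_add_one_eq_two, add_smul, one_smul]
      · simp only [zero_add, pow_one, powSum]
        exact hsum
    | succ n ih =>
      refine ⟨ih.2, ?_⟩
      have e : f ^ (n + 1 + 1) + f' ^ (n + 1 + 1) =
          (f + f') * (f ^ (n + 1) + f' ^ (n + 1)) - (f * f') * (f ^ n + f' ^ n) := by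
        have c1 : f' * f ^ (n + 1) = (f * f') * f ^ n := by
          rw [pow_succ', ← mul_assoc, hcomm]
        have c2 : f * f' ^ (n + 1) = (f * f') * f' ^ n := by
          rw [pow_succ', ← mul_assoc]
        rw [add_mul, mul_add, mul_add, mul_add, c1, c2, ← pow_succ', ← pow_succ']
        abel
      rw [e, ih.1, ih.2, hsum, hff']
      simp only [smul_mul_smul_comm, mul_one]
      show _ = powSum t d (n + 2) • (1 : Module.End k V)
      rw [powSum, sub_smul]
  have hpow : f ^ i * f' ^ i = (d ^ i) • (1 : Module.End k V) := by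
    rw [← hcomm'.mul_pow, hff', _root_.smul_pow, one_pow]
  unfold QuadAt
  rw [map_pow, map_pow, Units.val_pow_eq_pow_val, ← hf, ← hd]
  have h1 := (key i).1
  have h2 : f ^ i * f ^ i - powSum t d i • f ^ i + d ^ i • (1 : Module.End k V) =
      f ^ i * (f ^ i + f' ^ i) - powSum t d i • f ^ i := by
    rw [mul_add, hpow]; abel
  rw [h2, h1, mul_smul_comm, mul_one, sub_self]

end Powers

end Fermat.Agent.S29.TwoDim
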