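import Mathlib
import Fermat.Prelude.Def_EllipticCurve_FrobeniusTrace
import Fermat.Prelude.Def_FLTPrelim_Ramification
import Fermat.Agent.S29.TwoDim

/-!
# S29 (R-core, C6): power transfer of the Eichler–Shimura quadratic relation

`ρ : G →* End k V`, `χ : G →* kˣ`.

* `RelInv ρ χ g a : ρ g + χ g • ρ g⁻¹ = a • 1` (the hypothesis `hQ` of
  `RepOfModule.exists_rep_two`), `relInv_iff_quadAt` (`⇔ ρ g ^ 2 - a • ρ g + χ g = 0`),
  `relInv_iff_rel` (`⇔ ρ g * ρ g = a • ρ g - χ g • 1`, the `Rel` of `QuadraticRep`);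
* `relInv_pow` : the relation for `g` gives the relation for `g ^ i` with `a_i = powSum a (χ g) i`
  (Lucas recurrence `a_0 = 2, a_1 = a, a_{i+2} = a a_{i+1} - χ(g) a_i`);
* `relInv_of_eq_pow` : if `ρ g = ρ (σ ^ j)` and `χ g = χ (σ ^ j)`, the relation for `σ` gives the
  relation for `g`;
* Galois form (`G = F ≃ₐ[K] F`, `ρ, χ` trivial on the automorphisms fixing `L`):
  `map_eq_of_agree`, `relInv_of_agree_pow` (`g|_L = σ^j|_L`), `exists_t_of_frobenius` (abstract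
  Frobenius predicate) and `exists_t_of_cycCheb` (the exact output shape of
  `CycCheb.exists_frobenius_generator`): `∃ t : G → k, ∀ g, ρ g + χ g • ρ g⁻¹ = t g • 1`.
-/

set_option autoImplicit false

open Module

namespace Fermat.Agent.S29.PowerTransfer

open Fermat.Agent.S29.TwoDim

variable {k : Type*} [Field k] {G : Type*} [Group G]
  {V : Type*} [AddCommGroup V] [Module k V]

section Rel

variable (ρ : G →* Module.End k V) (χ : G →* kˣ)

/-- the Eichler–Shimura relation in the form `g + χ(g) g⁻¹ = a`. -/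
def RelInv (g : G) (a : k) : Prop :=
  ρ g + ((χ g : kˣ) : k) • ρ g⁻¹ = a • (1 : Module.End k V)

theorem relInv_iff_quadAt (g : G) (a : k) : RelInv ρ χ g a ↔ QuadAt ρ χ g a := by
  constructor
  · intro h
    unfold RelInv at h
    unfold QuadAt
    have h1 := congrArg (fun f => ρ g * f) h
    simp only [mul_add, mul_smul_comm, rho_mul_inv, mul_one] at h1
    rw [← h1]
    abel
  · intro h
    unfold RelInv
    rw [inv_eq ρ χ h]
    abel

/-- the form `ρ g * ρ g = a • ρ g - χ g • 1` (`QuadraticRep.Rel` with `χ` valued in `k`). -/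
theorem relInv_iff_rel (g : G) (a : k) :
    RelInv ρ χ g a ↔ ρ g * ρ g = a • ρ g - ((χ g : kˣ) : k) • (1 : Module.End k V) := by
  rw [relInv_iff_quadAt]
  unfold QuadAt
  constructor
  · intro h
    rw [← sub_eq_zero, ← h]
    abel
  · intro h
    rw [h]
    abel

/-- **power transfer**. -/
theorem relInv_pow {g : G} {a : k} (h : RelInv ρ χ g a) (i : ℕ) :
    RelInv ρ χ (g ^ i) (powSum a ((χ g : kˣ) : k) i) :=
  (relInv_iff_quadAt ρ χ _ _).mpr (quadAt_pow ρ χ ((relInv_iff_quadAt ρ χ _ _).mp h) i)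

/-- `ρ g⁻¹` only depends on `ρ g`. -/
theorem rho_inv_eq_of_eq {g h : G} (e : ρ g = ρ h) : ρ g⁻¹ = ρ h⁻¹ := by
  calc ρ g⁻¹ = ρ g⁻¹ * (ρ h * ρ h⁻¹) := by rw [rho_mul_inv, mul_one]
    _ = (ρ g⁻¹ * ρ g) * ρ h⁻¹ := by rw [← e, mul_assoc]
    _ = ρ h⁻¹ := by rw [rho_inv_mul, one_mul]

theorem relInv_congr {g h : G} {a : k} (e1 : ρ g = ρ h) (e2 : χ g = χ h) (hh : RelInv ρ χ h a) :
    RelInv ρ χ g a := by
  unfold RelInv at hh ⊢
  rw [e1, e2, rho_inv_eq_of_eq ρ e1]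
  exact hh

/-- **transfer from a Frobenius `σ` to an element acting as a power of `σ`**. -/
theorem relInv_of_eq_pow {g σ : G} {j : ℕ} {a : k} (hσ : RelInv ρ χ σ a)
    (h1 : ρ g = ρ (σ ^ j)) (h2 : χ g = χ (σ ^ j)) :
    RelInv ρ χ g (powSum a ((χ σ : kˣ) : k) j) :=
  relInv_congr ρ χ h1 h2 (relInv_pow ρ χ hσ j)

end Rel

/-! ### Galois form -/

section Galois

variable {K F : Type*} [Field K] [Field F] [Algebra K F]

/-- a homomorphism trivial on the automorphisms fixing `L` only depends on the restriction to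
`L`. -/
theorem map_eq_of_agree {M : Type*} [Monoid M] (f : (F ≃ₐ[K] F) →* M) (L : IntermediateField K F)
    (hL : ∀ τ : F ≃ₐ[K] F, (∀ x ∈ L, τ x = x) → f τ = 1)
    {g h : F ≃ₐ[K] F} (hgh : ∀ x ∈ L, g x = h x) : f g = f h := by
  have h1 : f (h⁻¹ * g) = 1 := by
    apply hL
    intro x hx
    rw [AlgEquiv.mul_apply, hgh x hx]
    exact h.symm_apply_apply x
  calc f g = f (h * (h⁻¹ * g)) := by rw [mul_inv_cancel_left]
    _ = f h := by rw [map_mul, h1, mul_one]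

variable (ρ : (F ≃ₐ[K] F) →* Module.End k V) (χ : (F ≃ₐ[K] F) →* kˣ)
  (L : IntermediateField K F)
  (hLρ : ∀ τ : F ≃ₐ[K] F, (∀ x ∈ L, τ x = x) → ρ τ = 1)
  (hLχ : ∀ τ : F ≃ₐ[K] F, (∀ x ∈ L, τ x = x) → χ τ = 1)

include hLρ hLχ in
/-- if `g|_L = σ^j|_L`, the relation for `σ` gives the relation for `g`. -/
theorem relInv_of_agree_pow {g σ : F ≃ₐ[K] F} {j : ℕ} {a : k} (hσ : RelInv ρ χ σ a)
    (hg : ∀ x ∈ L, g x = (σ ^ j) x) :
    RelInv ρ χ g (powSum a ((χ σ : kˣ) : k) j) :=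
  relInv_of_eq_pow ρ χ hσ (map_eq_of_agree ρ L hLρ hg) (map_eq_of_agree χ L hLχ hg)

include hLρ hLχ in
/-- **abstract form**: if every `g` agrees on `L` with a power of a 'Frobenius' and every
'Frobenius' satisfies the relation, every `g` does. -/
theorem exists_t_of_frobenius (IsFrob : (F ≃ₐ[K] F) → Prop)
    (hcheb : ∀ g : F ≃ₐ[K] F, ∃ (σ : F ≃ₐ[K] F) (j : ℕ), IsFrob σ ∧ ∀ x ∈ L, g x = (σ ^ j) x)
    (hkey : ∀ σ, IsFrob σ → ∃ a : k, RelInv ρ χ σ a) :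
    ∃ t : (F ≃ₐ[K] F) → k, ∀ g,
      ρ g + ((χ g : kˣ) : k) • ρ g⁻¹ = t g • (1 : Module.End k V) := by
  have H : ∀ g : F ≃ₐ[K] F, ∃ b : k, RelInv ρ χ g b := by
    intro g
    obtain ⟨σ, j, hσ, hg⟩ := hcheb g
    obtain ⟨a, ha⟩ := hkey σ hσ
    exact ⟨_, relInv_of_agree_pow ρ χ L hLρ hLχ ha hg⟩
  exact ⟨fun g => (H g).choose, fun g => (H g).choose_spec⟩

include hLρ hLχ in
/-- **the form consuming `CycCheb.exists_frobenius_generator` and the hcomm-free KEY**: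
`hcheb` is the output of weak cyclic Chebotarev for the field `L` and the set `bad` of primes,
`hkey` the Eichler–Shimura relation at every Frobenius lift at a prime outside `bad`. -/
theorem exists_t_of_cycCheb (bad : Finset ℕ)
    (hcheb : ∀ g : F ≃ₐ[K] F, ∃ (ℓ : ℕ) (A : ValuationSubring F) (σ : F ≃ₐ[K] F) (i j : ℕ),
      ℓ.Prime ∧ ℓ ∉ bad ∧ A.LiesOverPrime ℓ ∧ A.IsFrobeniusAt σ ℓ ∧
      (∀ x ∈ L, σ x = (g ^ i) x) ∧ (∀ x ∈ L, g x = (σ ^ j) x))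
    (hkey : ∀ (ℓ : ℕ) (A : ValuationSubring F) (σ : F ≃ₐ[K] F), ℓ.Prime → ℓ ∉ bad →
      A.LiesOverPrime ℓ → A.IsFrobeniusAt σ ℓ → ∃ a : k, RelInv ρ χ σ a) :
    ∃ t : (F ≃ₐ[K] F) → k, ∀ g,
      ρ g + ((χ g : kˣ) : k) • ρ g⁻¹ = t g • (1 : Module.End k V) := by
  refine exists_t_of_frobenius ρ χ L hLρ hLχ
    (fun σ => ∃ (ℓ : ℕ) (A : ValuationSubring F), ℓ.Prime ∧ ℓ ∉ bad ∧ A.LiesOverPrime ℓ ∧
      A.IsFrobeniusAt σ ℓ) (fun g => ?_) (fun σ hσ => ?_)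
  · obtain ⟨ℓ, A, σ, i, j, h1, h2, h3, h4, _, h6⟩ := hcheb g
    exact ⟨σ, j, ⟨ℓ, A, h1, h2, h3, h4⟩, h6⟩
  · obtain ⟨ℓ, A, h1, h2, h3, h4⟩ := hσ
    exact hkey ℓ A σ h1 h2 h3 h4

end Galois

end Fermat.Agent.S29.PowerTransfer
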