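import Mathlib

/-!
# S29 (R2): irreducible representations all of whose elements satisfy a quadratic relation

`k` algebraically closed, `W` a finite-dimensional `k`-vector space, `ρ : H →* End k W` an
irreducible representation of a group `H`, `χ : H →* k` a character, and for every `h` a scalar
`a` with `ρ h ^ 2 = a • ρ h - χ h • 1` (Eichler–Shimura relation).  Then `dim W ≤ 2`, and if
`dim W = 2` the characteristic polynomial of every `ρ h` is `X² - a X + χ h`.
-/

set_option autoImplicit false

open Polynomial Module

namespace Fermat.Agent.S29.QuadraticRep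

variable {k : Type*} [Field k] {W : Type*} [AddCommGroup W] [Module k W]
variable {H : Type*} [Group H] (ρ : H →* Module.End k W) (χ : H →* k)

/-- the quadratic relation for `h` with "trace" `a` -/
def Rel (h : H) (a : k) : Prop := ρ h * ρ h = a • ρ h - χ h • (1 : Module.End k W)

/-- irreducibility: every `H`-stable subspace is `⊥` or `⊤` -/
def Irred : Prop :=
  ∀ U : Submodule k W, (∀ h : H, ∀ w ∈ U, ρ h w ∈ U) → U = ⊥ ∨ U = ⊤

variable {ρ χ}

theorem chi_ne_zero (h : H) : χ h ≠ 0 := by
  intro h0
  have h1 : χ h * χ h⁻¹ = 1 := by rw [← map_mul, mul_inv_cancel, map_one]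
  rw [h0, zero_mul] at h1
  exact zero_ne_one h1

theorem rho_mul_inv (h : H) : ρ h * ρ h⁻¹ = 1 := by
  rw [← map_mul, mul_inv_cancel, map_one]

theorem rho_inv_mul (h : H) : ρ h⁻¹ * ρ h = 1 := by
  rw [← map_mul, inv_mul_cancel, map_one]

/-- `χ h • ρ h⁻¹ = a - ρ h` -/
theorem chi_smul_inv {h : H} {a : k} (hr : Rel ρ χ h a) :
    χ h • ρ h⁻¹ = a • (1 : Module.End k W) - ρ h := by
  have h1 : (ρ h * ρ h) * ρ h⁻¹ = (a • ρ h - χ h • (1 : Module.End k W)) * ρ h⁻¹ := by
    rw [hr]
  rw [mul_assoc, rho_mul_inv, mul_one, sub_mul, smul_mul_assoc, rho_mul_inv, smul_mul_assoc,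
    one_mul] at h1
  rw [h1]
  abel

/-- **polarisation** of the quadratic relation -/
theorem polarisation {g h : H} {ag ah agh : k} (hg : Rel ρ χ g ag) (hh : Rel ρ χ h ah)
    (hgh : Rel ρ χ (g * h) agh) :
    ρ g * ρ h + ρ h * ρ g =
      ah • ρ g + ag • ρ h + (agh - ag * ah) • (1 : Module.End k W) := by
  have e1 := chi_smul_inv hg
  have e2 := chi_smul_inv hh
  have e3 := chi_smul_inv hgh
  have e4 : χ (g * h) • ρ (g * h)⁻¹ = (χ h • ρ h⁻¹) * (χ g • ρ g⁻¹) := by
    rw [mul_inv_rev, map_mul, map_mul, smul_mul_smul_comm, mul_comm (χ h)]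
  rw [e3, e2, e1, map_mul] at e4
  -- e4 : agh • 1 - ρ g * ρ h = (ah • 1 - ρ h) * (ag • 1 - ρ g)
  have e5 : (ah • (1 : Module.End k W) - ρ h) * (ag • (1 : Module.End k W) - ρ g)
      = (ah * ag) • (1 : Module.End k W) - ah • ρ g - ag • ρ h + ρ h * ρ g := by
    rw [sub_mul, mul_sub, mul_sub, smul_mul_smul_comm, mul_one, smul_mul_assoc, one_mul,
      mul_smul_comm, mul_one]
    abel
  rw [e5] at e4
  have e6 : ρ g * ρ h + ρ h * ρ g
      = agh • (1 : Module.End k W) - ((ah * ag) • (1 : Module.End k W) - ah • ρ g - ag • ρ h) := by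
    have := e4
    have h2 : ρ h * ρ g = agh • (1 : Module.End k W) - ρ g * ρ h
        - ((ah * ag) • (1 : Module.End k W) - ah • ρ g - ag • ρ h) := by
      rw [e4]; abel
    rw [h2]; abel
  rw [e6, sub_smul, mul_comm ag ah]
  abel

/-- the orbit of a nonzero vector spans `W` -/
theorem span_orbit_eq_top (hirr : Irred ρ) {v : W} (hv : v ≠ 0) :
    Submodule.span k (Set.range fun g : H => ρ g v) = ⊤ := by
  have hstab : ∀ h : H, ∀ w ∈ Submodule.span k (Set.range fun g : H => ρ g v),
      ρ h w ∈ Submodule.span k (Set.range fun g : H => ρ g v) := by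
    intro h w hw
    induction hw using Submodule.span_induction with
    | mem x hx =>
      obtain ⟨g, rfl⟩ := hx
      refine Submodule.subset_span ⟨h * g, ?_⟩
      simp only [map_mul, Module.End.mul_apply]
    | zero => rw [map_zero]; exact Submodule.zero_mem _
    | add x y _ _ hx hy => rw [map_add]; exact Submodule.add_mem _ hx hy
    | smul c x _ hx => rw [map_smul]; exact Submodule.smul_mem _ c hx
  rcases hirr _ hstab with h | h
  · exfalso
    have hmem : v ∈ Submodule.span k (Set.range fun g : H => ρ g v) :=
      Submodule.subset_span ⟨1, by simp⟩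
    rw [h] at hmem
    exact hv ((Submodule.mem_bot k).mp hmem)
  · exact h

/-- **key step**: if `v` is an eigenvector of `ρ h` for `c`, then `ρ h - (a - c)` maps `W` into
the line `k v`. -/
theorem sub_smul_mem_span (hquad : ∀ h : H, ∃ a : k, Rel ρ χ h a) (hirr : Irred ρ)
    {h : H} {a : k} (hh : Rel ρ χ h a) {v : W} (hv : v ≠ 0) {c : k} (hc : ρ h v = c • v)
    (w : W) : ρ h w - (a - c) • w ∈ Submodule.span k {v} := by
  have hw : w ∈ Submodule.span k (Set.range fun g : H => ρ g v) := by
    rw [span_orbit_eq_top hirr hv]; exact Submodule.mem_top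
  induction hw using Submodule.span_induction with
  | mem x hx =>
    obtain ⟨g, rfl⟩ := hx
    obtain ⟨ag, hg⟩ := hquad g
    obtain ⟨agh, hgh⟩ := hquad (g * h)
    have hpol := polarisation hg hh hgh
    have h1 := congrArg (fun f : Module.End k W => f v) hpol
    simp only [LinearMap.add_apply, Module.End.mul_apply, LinearMap.smul_apply,
      Module.End.one_apply, hc, map_smul] at h1
    -- h1 : c • ρ g v + ρ h (ρ g v) = a • ρ g v + ag • c • v + (agh - ag * a) • v
    have h2 : ρ h (ρ g v) - (a - c) • ρ g v = (ag * c + (agh - ag * a)) • v := by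
      have h3 : ρ h (ρ g v) = a • ρ g v + ag • c • v + (agh - ag * a) • v - c • ρ g v := by
        rw [← h1]; abel
      rw [h3]
      module
    rw [h2]
    exact Submodule.smul_mem _ _ (Submodule.mem_span_singleton_self v)
  | zero =>
    rw [map_zero, smul_zero, sub_zero]; exact Submodule.zero_mem _
  | add x y _ _ hx hy =>
    have : ρ h (x + y) - (a - c) • (x + y)
        = (ρ h x - (a - c) • x) + (ρ h y - (a - c) • y) := by
      rw [map_add, smul_add]; abel
    rw [this]; exact Submodule.add_mem _ hx hy
  | smul d x _ hx =>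
    have : ρ h (d • x) - (a - c) • (d • x) = d • (ρ h x - (a - c) • x) := by
      rw [map_smul, smul_sub, smul_comm]
    rw [this]; exact Submodule.smul_mem _ d hx

/-! ### the characteristic polynomial in dimension `2` -/

/-- the quadratic polynomial `X² - a X + b` -/
noncomputable def quad (a b : k) : k[X] := X ^ 2 + (C (-a) * X + C b)

theorem quad_eq (a b : k) : quad a b = X ^ 2 - C a * X + C b := by
  rw [quad, C_neg]; ring

theorem quad_monic (a b : k) : (quad a b).Monic :=
  monic_X_pow_add (lt_of_le_of_lt (degree_linear_le) (by norm_num))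

theorem quad_natDegree (a b : k) : (quad a b).natDegree = 2 := by
  have h1 : (C (-a) * X + C b : k[X]).degree < ((X : k[X]) ^ 2).degree := by
    rw [degree_X_pow]
    exact lt_of_le_of_lt degree_linear_le (by norm_num)
  rw [quad, natDegree_add_eq_left_of_degree_lt h1, natDegree_X_pow]

theorem aeval_quad {h : H} {a : k} (hh : Rel ρ χ h a) : aeval (ρ h) (quad a (χ h)) = 0 := by
  rw [quad_eq, map_add, map_sub, map_pow, map_mul, aeval_X, aeval_C, aeval_C,
    Algebra.algebraMap_eq_smul_one, Algebra.algebraMap_eq_smul_one, pow_two, hh, smul_mul_assoc,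
    one_mul]
  abel

variable [IsAlgClosed k] [FiniteDimensional k W]

/-- **dimension bound**: an irreducible representation all of whose elements satisfy the
quadratic relation (with multiplicative constant term) has dimension at most `2`. -/
theorem finrank_le_two (hquad : ∀ h : H, ∃ a : k, Rel ρ χ h a) (hirr : Irred ρ) :
    Module.finrank k W ≤ 2 := by
  by_cases hsc : ∀ h : H, ∃ c : k, ρ h = c • (1 : Module.End k W)
  · -- all scalars: every line is stable
    by_cases hW : ∀ v : W, v = 0
    · have : Subsingleton W := ⟨fun x y => by rw [hW x, hW y]⟩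
      rw [Module.finrank_zero_of_subsingleton]; norm_num
    · push Not at hW
      obtain ⟨v, hv⟩ := hW
      have hstab : ∀ h : H, ∀ w ∈ Submodule.span k {v}, ρ h w ∈ Submodule.span k {v} := by
        intro h w hw
        obtain ⟨c, hc⟩ := hsc h
        rw [hc, LinearMap.smul_apply, Module.End.one_apply]
        exact Submodule.smul_mem _ c hw
      rcases hirr _ hstab with h | h
      · exfalso
        have := Submodule.mem_span_singleton_self (R := k) v
        rw [h] at this
        exact hv ((Submodule.mem_bot k).mp this)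
      · have h1 : Module.finrank k (Submodule.span k {v}) ≤ 1 := (finrank_span_singleton hv).le
        have h2 : Module.finrank k (Submodule.span k {v}) = Module.finrank k W := by
          rw [h]; exact finrank_top k W
        omega
  · push Not at hsc
    obtain ⟨h, hns⟩ := hsc
    have hnt : Nontrivial W := by
      by_contra hnt
      rw [not_nontrivial_iff_subsingleton] at hnt
      exact hns 0 (LinearMap.ext fun w => Subsingleton.elim _ _)
    obtain ⟨a, hh⟩ := hquad h
    obtain ⟨c, hc⟩ := Module.End.exists_eigenvalue (ρ h)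
    obtain ⟨v, hv⟩ := hc.exists_hasEigenvector
    have hv0 : v ≠ 0 := hv.2
    have hcv : ρ h v = c • v := hv.apply_eq_smul
    set N : Module.End k W := ρ h - (a - c) • (1 : Module.End k W) with hN
    have hNapp : ∀ w, N w = ρ h w - (a - c) • w := fun w => by
      rw [hN, LinearMap.sub_apply, LinearMap.smul_apply, Module.End.one_apply]
    -- the range of `N` is contained in a line
    have hrange : LinearMap.range N ≤ Submodule.span k {v} := by
      rintro _ ⟨w, rfl⟩
      rw [hNapp]
      exact sub_smul_mem_span hquad hirr hh hv0 hcv w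
    have hr1 : Module.finrank k (LinearMap.range N) ≤ 1 :=
      (Submodule.finrank_mono hrange).trans (finrank_span_singleton hv0).le
    -- the kernel of `N` is contained in a line
    have hk1 : Module.finrank k (LinearMap.ker N) ≤ 1 := by
      -- `ρ h - c` is not zero
      have hne : ∃ w₀ : W, ρ h w₀ - c • w₀ ≠ 0 := by
        by_contra hall
        push Not at hall
        exact hns c (LinearMap.ext fun w => by
          rw [LinearMap.smul_apply, Module.End.one_apply]; exact sub_eq_zero.mp (hall w))
      obtain ⟨w₀, hw₀⟩ := hne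
      set u := ρ h w₀ - c • w₀ with hu
      have hker : LinearMap.ker N ≤ Submodule.span k {u} := by
        intro v' hv'
        by_cases hv'0 : v' = 0
        · rw [hv'0]; exact Submodule.zero_mem _
        have hv'e : ρ h v' = (a - c) • v' := by
          have := LinearMap.mem_ker.mp hv'
          rw [hNapp] at this
          exact sub_eq_zero.mp this
        have hmem := sub_smul_mem_span hquad hirr hh hv'0 hv'e w₀
        rw [sub_sub_cancel] at hmem
        -- hmem : u ∈ span {v'}
        obtain ⟨d, hd⟩ := Submodule.mem_span_singleton.mp hmem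
        have hd0 : d ≠ 0 := by
          rintro rfl
          rw [zero_smul] at hd
          exact hw₀ hd.symm
        have hd' : d • v' = u := hd
        have : v' = d⁻¹ • u := by
          rw [← hd', smul_smul, inv_mul_cancel₀ hd0, one_smul]
        rw [this]
        exact Submodule.smul_mem _ _ (Submodule.mem_span_singleton_self u)
      exact (Submodule.finrank_mono hker).trans (finrank_span_singleton hw₀).le
    have := LinearMap.finrank_range_add_finrank_ker N
    omega

/-! ### the characteristic polynomial in dimension `2` (continued) -/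

omit [IsAlgClosed k] in
/-- non-scalar elements: the characteristic polynomial is the quadratic relation -/
theorem charpoly_of_not_scalar (h2 : Module.finrank k W = 2) {h : H} {a : k}
    (hh : Rel ρ χ h a) (hns : ∀ c : k, ρ h ≠ c • (1 : Module.End k W)) :
    (ρ h).charpoly = quad a (χ h) := by
  have hnt : Nontrivial W := Module.nontrivial_of_finrank_pos (R := k) (by rw [h2]; norm_num)
  have hint : IsIntegral k (ρ h) := LinearMap.isIntegral (ρ h)
  have hdeg : 2 ≤ (minpoly k (ρ h)).natDegree := by
    rw [minpoly.two_le_natDegree_iff hint]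
    rintro ⟨c, hc⟩
    exact hns c (by rw [← hc, Algebra.algebraMap_eq_smul_one])
  have hdvd : minpoly k (ρ h) ∣ quad a (χ h) := minpoly.dvd _ _ (aeval_quad hh)
  have e1 : quad a (χ h) = minpoly k (ρ h) :=
    eq_of_monic_of_dvd_of_natDegree_le (minpoly.monic hint) (quad_monic _ _) hdvd
      (by rw [quad_natDegree]; exact hdeg)
  have e2 : (ρ h).charpoly = minpoly k (ρ h) :=
    eq_of_monic_of_dvd_of_natDegree_le (minpoly.monic hint) (LinearMap.charpoly_monic _)
      (LinearMap.minpoly_dvd_charpoly _) (by rw [LinearMap.charpoly_natDegree, h2]; exact hdeg)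
  rw [e2, e1]

omit [IsAlgClosed k] in
theorem det_of_not_scalar (h2 : Module.finrank k W = 2) {h : H} {a : k}
    (hh : Rel ρ χ h a) (hns : ∀ c : k, ρ h ≠ c • (1 : Module.End k W)) :
    LinearMap.det (ρ h) = χ h := by
  rw [LinearMap.det_eq_sign_charpoly_coeff, h2, charpoly_of_not_scalar h2 hh hns, quad]
  simp

omit [IsAlgClosed k] in
/-- **the characteristic polynomial in dimension `2`** -/
theorem charpoly_eq_quad (hquad : ∀ h : H, ∃ a : k, Rel ρ χ h a) (hirr : Irred ρ)
    (h2 : Module.finrank k W = 2) {h : H} {a : k} (hh : Rel ρ χ h a) :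
    (ρ h).charpoly = quad a (χ h) := by
  by_cases hns : ∀ c : k, ρ h ≠ c • (1 : Module.End k W)
  · exact charpoly_of_not_scalar h2 hh hns
  push Not at hns
  obtain ⟨c, hc⟩ := hns
  have hnt : Nontrivial W := Module.nontrivial_of_finrank_pos (R := k) (by rw [h2]; norm_num)
  obtain ⟨v, hv⟩ := exists_ne (0 : W)
  -- there is a non-scalar element
  have hex : ∃ g : H, ∀ d : k, ρ g ≠ d • (1 : Module.End k W) := by
    by_contra hall
    push Not at hall
    have hstab : ∀ h : H, ∀ w ∈ Submodule.span k {v}, ρ h w ∈ Submodule.span k {v} := by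
      intro h w hw
      obtain ⟨d, hd⟩ := hall h
      rw [hd, LinearMap.smul_apply, Module.End.one_apply]
      exact Submodule.smul_mem _ d hw
    rcases hirr _ hstab with h | h
    · have := Submodule.mem_span_singleton_self (R := k) v
      rw [h] at this
      exact hv ((Submodule.mem_bot k).mp this)
    · have h1 : Module.finrank k (Submodule.span k {v}) = 1 := finrank_span_singleton hv
      rw [h, finrank_top, h2] at h1
      norm_num at h1
  obtain ⟨g, hg⟩ := hex
  obtain ⟨ag, hgr⟩ := hquad g
  obtain ⟨ahg, hhgr⟩ := hquad (h * g)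
  have hc0 : c ≠ 0 := by
    rintro rfl
    have h1 := rho_mul_inv (ρ := ρ) h
    rw [hc, zero_smul, zero_mul] at h1
    exact zero_ne_one h1
  have hhg : ρ (h * g) = c • ρ g := by rw [map_mul, hc, smul_mul_assoc, one_mul]
  have hhgns : ∀ d : k, ρ (h * g) ≠ d • (1 : Module.End k W) := by
    intro d hd
    apply hg (c⁻¹ * d)
    rw [hhg] at hd
    rw [mul_smul, ← hd, smul_smul, inv_mul_cancel₀ hc0, one_smul]
  have hdet1 := det_of_not_scalar h2 hgr hg
  have hdet2 := det_of_not_scalar h2 hhgr hhgns
  rw [hhg, LinearMap.det_smul, h2, hdet1, map_mul] at hdet2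
  have hcc : c ^ 2 = χ h := mul_right_cancel₀ (chi_ne_zero (χ := χ) g) hdet2
  -- the relation at `v`
  have hrel := congrArg (fun f : Module.End k W => f v) hh
  simp only [hc, Module.End.mul_apply, LinearMap.smul_apply, Module.End.one_apply,
    LinearMap.sub_apply] at hrel
  have hrel2 : (c * c - (a * c - χ h)) • v = 0 := by
    rw [sub_smul, sub_smul, mul_smul, mul_smul, hrel]
    abel
  have hscal : c * c - (a * c - χ h) = 0 := (smul_eq_zero.mp hrel2).resolve_right hv
  have ha : a = c + c := by
    have h3 : c * (c + c - a) = 0 := by rw [← hcc] at hscal; linear_combination hscal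
    have := (mul_eq_zero.mp h3).resolve_left hc0
    linear_combination -this
  -- the characteristic polynomial of a scalar
  have hcp : (ρ h).charpoly = (X - C c) ^ 2 := by
    have h0 := LinearMap.charpoly_sub_smul (0 : Module.End k W) (-c)
    rw [zero_sub, neg_smul, neg_neg, LinearMap.charpoly_zero, h2] at h0
    rw [hc, h0, pow_comp, X_comp, C_neg]
    ring
  rw [hcp, quad_eq, ha, ← hcc, C_add, C_pow]
  ring

end Fermat.Agent.S29.QuadraticRep
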