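import Mathlib
import Fermat.Agent.S29.QuadraticRep

/-!
# S29 (R2-junction): from a module with the Eichler-Shimura relation to a 2-dimensional
representation with the exact characteristic polynomials

`k` algebraically closed, `V ≠ 0` a finite-dimensional `k`-vector space with a representation
`ρV : G →* End k V`, `χ : G →* kˣ` a character and `t : G → k` such that
`ρV g + χ g • ρV g⁻¹ = t g • 1` for ALL `g`.  Then there is a representation `ρ'` of `G` on a
`2`-dimensional `k`-vector space `V' : Type` with `charpoly (ρ' g) = X² - t g X + χ g` for all `g`,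
and `ρ' g = 1` whenever `ρV g = 1` and `χ g = 1` (`exists_rep_two`).

Proof: a minimal non-zero stable subspace `W ⊆ V` is irreducible, so `dim W ≤ 2`
(`QuadraticRep.finrank_le_two`); `dim W = 2`: `ρ' = ρV|_W` (`QuadraticRep.charpoly_eq_quad`);
`dim W = 1` with character `ψ`: `ρ' = ψ ⊕ χ ψ⁻¹` on `k²`.
-/

set_option autoImplicit false

open Module Polynomial

namespace Fermat.Agent.S29.RepOfModule

variable {k : Type*} [Field k] {G : Type*} [Group G]

section Stable

variable {V : Type*} [AddCommGroup V] [Module k V]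

/-- stability of a subspace under a representation. -/
def IsStable (ρ : G →* Module.End k V) (U : Submodule k V) : Prop := ∀ g, ∀ x ∈ U, ρ g x ∈ U

/-- the restriction of a representation to a stable subspace. -/
noncomputable def restrictRep (ρ : G →* Module.End k V) (U : Submodule k V) (hU : IsStable ρ U) :
    G →* Module.End k U where
  toFun g := (ρ g).restrict (hU g)
  map_one' := by
    ext x
    simp [LinearMap.restrict_apply]
  map_mul' g h := by
    ext x
    simp [LinearMap.restrict_apply]

@[simp] theorem restrictRep_apply (ρ : G →* Module.End k V) (U : Submodule k V)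
    (hU : IsStable ρ U) (g : G) (x : U) : ((restrictRep ρ U hU g x : U) : V) = ρ g x := rfl

theorem exists_minimal_stable [FiniteDimensional k V] [Nontrivial V] (ρ : G →* Module.End k V) :
    ∃ U : Submodule k V, U ≠ ⊥ ∧ IsStable ρ U ∧
      ∀ U' : Submodule k V, U' ≤ U → U' ≠ ⊥ → IsStable ρ U' → U' = U := by
  classical
  have hex : ∃ n : ℕ, ∃ U : Submodule k V, U ≠ ⊥ ∧ IsStable ρ U ∧ finrank k U = n :=
    ⟨finrank k (⊤ : Submodule k V), ⊤, top_ne_bot, fun _ _ _ => Submodule.mem_top, rfl⟩
  obtain ⟨U, hU0, hUs, hUn⟩ := Nat.find_spec hex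
  refine ⟨U, hU0, hUs, fun U' hle h0 hs => ?_⟩
  have h1 : Nat.find hex ≤ finrank k U' := Nat.find_min' hex ⟨U', h0, hs, rfl⟩
  have h2 : finrank k U' ≤ finrank k U := Submodule.finrank_mono hle
  exact Submodule.eq_of_le_of_finrank_eq hle (le_antisymm h2 (hUn ▸ h1))

theorem irreducible_restrict (ρ : G →* Module.End k V) (U : Submodule k V) (hUs : IsStable ρ U)
    (hmin : ∀ U' : Submodule k V, U' ≤ U → U' ≠ ⊥ → IsStable ρ U' → U' = U)
    (Us : Submodule k U) (hs : IsStable (restrictRep ρ U hUs) Us) : Us = ⊥ ∨ Us = ⊤ := by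
  by_cases h0 : Us = ⊥
  · exact Or.inl h0
  right
  have hle : Us.map U.subtype ≤ U := Submodule.map_subtype_le U Us
  have hne : Us.map U.subtype ≠ ⊥ := by
    intro h
    apply h0
    rw [eq_bot_iff] at h ⊢
    intro x hx
    have hx' : (x : V) ∈ Us.map U.subtype := ⟨x, hx, rfl⟩
    have := h hx'
    rw [Submodule.mem_bot] at this ⊢
    exact Subtype.ext this
  have hst : IsStable ρ (Us.map U.subtype) := by
    rintro g _ ⟨x, hx, rfl⟩
    exact ⟨restrictRep ρ U hUs g x, hs g x hx, rfl⟩
  have := hmin _ hle hne hst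
  apply Submodule.map_injective_of_injective U.subtype_injective
  rw [this, Submodule.map_subtype_top]

end Stable


section DimOne

variable {W : Type*} [AddCommGroup W] [Module k W]

theorem smul_one_injective [Nontrivial W] {c c' : k}
    (h : c • (1 : Module.End k W) = c' • (1 : Module.End k W)) : c = c' := by
  obtain ⟨x, hx⟩ := exists_ne (0 : W)
  have := congrArg (fun f : Module.End k W => f x) h
  simp only [LinearMap.smul_apply, Module.End.one_apply] at this
  exact smul_left_injective k hx this

/-- on a line every endomorphism is a scalar. -/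
theorem exists_eq_smul_one (h1 : finrank k W = 1) (f : Module.End k W) :
    ∃ c : k, f = c • (1 : Module.End k W) := by
  let b : Basis (Fin 1) k W := Module.basisUnique (Fin 1) h1
  refine ⟨b.repr (f (b 0)) 0, ?_⟩
  apply b.ext
  intro i
  have hi : i = 0 := Subsingleton.elim _ _
  subst hi
  have := b.sum_repr (f (b 0))
  rw [Fin.sum_univ_one] at this
  rw [LinearMap.smul_apply, Module.End.one_apply]
  exact this.symm

/-- **the reducible case**: from a line `W` with the quadratic relation, the representation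
`ψ ⊕ χ ψ⁻¹` on `k²`. -/
theorem exists_rep_of_dim_one (h1 : finrank k W = 1) (ρ : G →* Module.End k W) (χ : G →* kˣ)
    (t : G → k) (hQ : ∀ g, ρ g + (χ g : k) • ρ g⁻¹ = t g • (1 : Module.End k W)) :
    ∃ ρ' : G →* Module.End k (Fin 2 → k), (∀ g, ρ g = 1 → χ g = 1 → ρ' g = 1) ∧
      ∀ g, (ρ' g).charpoly = X ^ 2 - C (t g) * X + C (χ g : k) := by
  classical
  haveI : Nontrivial W := Module.nontrivial_of_finrank_pos (R := k) (by rw [h1]; exact one_pos)
  choose ψ hψ using fun g => exists_eq_smul_one h1 (ρ g)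
  have hψ1 : ψ 1 = 1 := by
    apply smul_one_injective (W := W)
    rw [← hψ, map_one, one_smul]
  have hψmul : ∀ g h, ψ (g * h) = ψ g * ψ h := by
    intro g h
    apply smul_one_injective (W := W)
    rw [← hψ, map_mul, hψ g, hψ h, smul_mul_smul_comm, mul_one]
  have hψt : ∀ g, ψ g + (χ g : k) * ψ g⁻¹ = t g := by
    intro g
    apply smul_one_injective (W := W)
    rw [← hQ g, hψ g, hψ g⁻¹, add_smul, mul_smul]
  let Mhom : G →* Matrix (Fin 2) (Fin 2) k :=
    { toFun := fun g => Matrix.diagonal ![ψ g, (χ g : k) * ψ g⁻¹]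
      map_one' := by
        ext i j
        fin_cases i <;> fin_cases j <;> simp [hψ1]
      map_mul' := fun g h => by
        rw [Matrix.diagonal_mul_diagonal]
        congr 1
        ext i
        fin_cases i
        · simp [hψmul]
        · simp only [mul_inv_rev, map_mul, Units.val_mul, hψmul]
          simp
          ring }
  refine ⟨(Matrix.toLinAlgEquiv' : Matrix (Fin 2) (Fin 2) k ≃ₐ[k] _).toAlgHom.toMonoidHom.comp
    Mhom, ?_, ?_⟩
  · intro g hg hχ
    have hψg : ψ g = 1 := by
      apply smul_one_injective (W := W)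
      rw [← hψ, hg, one_smul]
    have hψg' : ψ g⁻¹ = 1 := by
      have := hψmul g g⁻¹
      rw [mul_inv_cancel, hψ1, hψg, one_mul] at this
      exact this.symm
    show Matrix.toLinAlgEquiv' (Matrix.diagonal ![ψ g, (χ g : k) * ψ g⁻¹]) = 1
    rw [hψg, hψg', hχ, Units.val_one, mul_one]
    have : (Matrix.diagonal ![(1 : k), 1] : Matrix (Fin 2) (Fin 2) k) = 1 := by
      ext i j
      fin_cases i <;> fin_cases j <;> simp
    rw [this, map_one]
  · intro g
    show (Matrix.toLinAlgEquiv' (Matrix.diagonal ![ψ g, (χ g : k) * ψ g⁻¹])).charpoly = _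
    have : (Matrix.toLinAlgEquiv' (Matrix.diagonal ![ψ g, (χ g : k) * ψ g⁻¹]) :
        Module.End k (Fin 2 → k)) = Matrix.toLin' (Matrix.diagonal ![ψ g, (χ g : k) * ψ g⁻¹]) := rfl
    rw [this, Matrix.charpoly_toLin', Matrix.charpoly_fin_two, Matrix.trace_fin_two,
      Matrix.det_fin_two]
    simp only [Matrix.diagonal_apply_eq, Matrix.cons_val_zero, Matrix.cons_val_one]
    have hinv : ψ g * ψ g⁻¹ = 1 := by rw [← hψmul, mul_inv_cancel, hψ1]
    have hdet : ψ g * ((χ g : k) * ψ g⁻¹) = (χ g : k) := by
      rw [mul_left_comm, hinv, mul_one]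
    simp only [Matrix.diagonal_apply_ne _ (by decide : (0 : Fin 2) ≠ 1),
      Matrix.diagonal_apply_ne _ (by decide : (1 : Fin 2) ≠ 0), mul_zero, sub_zero]
    rw [hψt g, hdet]

end DimOne


section Main

variable {k : Type} [Field k] {G : Type*} [Group G]

theorem restrictRep_eq_one {V : Type*} [AddCommGroup V] [Module k V] (ρ : G →* Module.End k V)
    (U : Submodule k V) (hU : IsStable ρ U) (g : G) (hg : ρ g = 1) : restrictRep ρ U hU g = 1 := by
  ext x
  rw [restrictRep_apply, hg]
  rfl

/-- the leaf `QuadraticRep.finrank_le_two` / `charpoly_eq_quad` in the shape used below. -/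
theorem leaf [IsAlgClosed k] {W : Type} [AddCommGroup W] [Module k W] [FiniteDimensional k W]
    (ρ : G →* Module.End k W) (χ : G →* kˣ) (t : G → k)
    (hirr : ∀ U : Submodule k W, IsStable ρ U → U = ⊥ ∨ U = ⊤)
    (hQ : ∀ g, ρ g + (χ g : k) • ρ g⁻¹ = t g • (1 : Module.End k W)) :
    finrank k W ≤ 2 ∧
      (finrank k W = 2 → ∀ g, (ρ g).charpoly = X ^ 2 - C (t g) * X + C (χ g : k)) := by
  have hrel : ∀ g, QuadraticRep.Rel ρ ((Units.coeHom k).comp χ) g (t g) := by
    intro g
    have h1 := congrArg (fun f : Module.End k W => f * ρ g) (hQ g)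
    simp only [add_mul, smul_mul_assoc, one_mul] at h1
    rw [QuadraticRep.rho_inv_mul] at h1
    show ρ g * ρ g = t g • ρ g - (χ g : k) • (1 : Module.End k W)
    rw [← h1]
    abel
  have hquad : ∀ g, ∃ a : k, QuadraticRep.Rel ρ ((Units.coeHom k).comp χ) g a :=
    fun g => ⟨t g, hrel g⟩
  have hirr' : QuadraticRep.Irred ρ := fun U hU => hirr U hU
  refine ⟨QuadraticRep.finrank_le_two hquad hirr', fun h2 g => ?_⟩
  rw [QuadraticRep.charpoly_eq_quad hquad hirr' h2 (hrel g), QuadraticRep.quad_eq]
  rfl

/-- **from a module with the Eichler-Shimura relation to a 2-dimensional representation with the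
exact characteristic polynomials.** -/
theorem exists_rep_two [IsAlgClosed k]
    {V : Type} [AddCommGroup V] [Module k V] [FiniteDimensional k V] [Nontrivial V]
    (ρV : G →* Module.End k V) (χ : G →* kˣ) (t : G → k)
    (hQ : ∀ g, ρV g + (χ g : k) • ρV g⁻¹ = t g • (1 : Module.End k V)) :
    ∃ (V' : Type) (_ : AddCommGroup V') (_ : Module k V') (_ : Module.Finite k V')
      (ρ' : G →* Module.End k V'), finrank k V' = 2 ∧
      (∀ g, ρV g = 1 → χ g = 1 → ρ' g = 1) ∧
      ∀ g, (ρ' g).charpoly = X ^ 2 - C (t g) * X + C (χ g : k) := by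
  obtain ⟨U, hU0, hUs, hmin⟩ := exists_minimal_stable ρV
  haveI : Nontrivial U := Submodule.nontrivial_iff_ne_bot.mpr hU0
  have hQU : ∀ g, restrictRep ρV U hUs g + (χ g : k) • restrictRep ρV U hUs g⁻¹ =
      t g • (1 : Module.End k U) := by
    intro g
    ext x
    have := congrArg (fun f : Module.End k V => f (x : V)) (hQ g)
    simpa using this
  obtain ⟨hle, h2⟩ := leaf (restrictRep ρV U hUs) χ t
    (fun Us hs => irreducible_restrict ρV U hUs hmin Us hs) hQU
  have hpos : 0 < finrank k U := Module.finrank_pos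
  rcases (by omega : finrank k U = 1 ∨ finrank k U = 2) with h | h
  · obtain ⟨ρ', hker, hch⟩ := exists_rep_of_dim_one h (restrictRep ρV U hUs) χ t hQU
    exact ⟨Fin 2 → k, inferInstance, inferInstance, inferInstance, ρ', Module.finrank_fin_fun k,
      fun g hg hχ => hker g (restrictRep_eq_one ρV U hUs g hg) hχ, hch⟩
  · exact ⟨U, inferInstance, inferInstance, inferInstance, restrictRep ρV U hUs, h,
      fun g hg _ => restrictRep_eq_one ρV U hUs g hg, h2 h⟩

end Main

end Fermat.Agent.S29.RepOfModule
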