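import Mathlib
import Fermat.Prelude.Def_GaloisRep_Residual
import Fermat.Agent.S05.Inertia
import Fermat.Agent.S37.FrobeniusEvery
import Fermat.Agent.S18.Trans.LiesOver

/-!
# S29 (project R), leaf CYC: the mod `p` cyclotomic character of `G_ℚ`

`chi p : (ℚ̄ ≃ₐ[ℚ] ℚ̄) →* (ZMod p)ˣ` (Mathlib's `modularCyclotomicCharacter`) with

* `chi_spec` : `σ ζ = ζ ^ (chi p σ).val` for every `p`-th root of unity `ζ`;
* `chi_finiteLevel` : `chi p` factors through a finite level (`GaloisFactorsThroughFiniteLevel`);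
* `chi_frobenius` : `chi p σ = ℓ` for `σ` a Frobenius at a valuation subring over `ℓ ≠ p`;
* `chi_inertia` : `chi p σ = 1` for `σ` in an inertia group over `ℓ ≠ p`;
* `chiK k p : (ℚ̄ ≃ₐ[ℚ] ℚ̄) →* kˣ` for a field `k` of characteristic `p`, with the same properties.
-/

set_option autoImplicit false
set_option linter.unusedSectionVars false
set_option linter.style.haveILetI false

open scoped Pointwise

namespace Fermat.Agent.S29.CycloChar

open ValuationSubring IsLocalRing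

local notation "Kb" => AlgebraicClosure ℚ
local notation "GQ" => (AlgebraicClosure ℚ ≃ₐ[ℚ] AlgebraicClosure ℚ)

variable (p : ℕ) [hp : Fact p.Prime]

instance neZero_p : NeZero p := ⟨hp.out.ne_zero⟩

theorem card_rootsOfUnity : Nat.card (rootsOfUnity p Kb) = p :=
  haveI : NeZero (p : Kb) := ⟨Nat.cast_ne_zero.mpr (NeZero.ne p)⟩
  HasEnoughRootsOfUnity.natCard_rootsOfUnity Kb p

/-- `AlgEquiv → RingEquiv` as a monoid homomorphism. -/
noncomputable def toRingEquivHom : GQ →* (Kb ≃+* Kb) where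
  toFun σ := (σ : Kb ≃+* Kb)
  map_one' := rfl
  map_mul' _ _ := rfl

/-- **the mod `p` cyclotomic character of `G_ℚ`.** -/
noncomputable def chi : GQ →* (ZMod p)ˣ :=
  (modularCyclotomicCharacter Kb (card_rootsOfUnity p)).comp toRingEquivHom

theorem chi_apply (σ : GQ) :
    chi p σ = modularCyclotomicCharacter Kb (card_rootsOfUnity p) (σ : Kb ≃+* Kb) := rfl

/-- `σ ζ = ζ ^ χ(σ)` for every `p`-th root of unity `ζ`. -/
theorem chi_spec (σ : GQ) {ζ : Kb} (hζ : ζ ^ p = 1) :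
    σ ζ = ζ ^ ((chi p σ : (ZMod p)ˣ) : ZMod p).val := by
  have hu : IsUnit ζ := IsUnit.of_pow_eq_one hζ (NeZero.ne p)
  obtain ⟨u, rfl⟩ := hu
  have hmem : u ∈ rootsOfUnity p Kb := by
    rw [mem_rootsOfUnity]
    exact Units.ext (by simpa using hζ)
  exact modularCyclotomicCharacter.spec Kb (card_rootsOfUnity p) (σ : Kb ≃+* Kb) hmem

/-- characterisation: if `σ ζ = ζ ^ c` on all `p`-th roots of unity then `χ(σ) = c`. -/
theorem chi_unique (σ : GQ) {c : ZMod p}
    (hc : ∀ ζ : Kb, ζ ^ p = 1 → σ ζ = ζ ^ c.val) : ((chi p σ : (ZMod p)ˣ) : ZMod p) = c := by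
  refine (modularCyclotomicCharacter.unique Kb (card_rootsOfUnity p) (σ : Kb ≃+* Kb)
    (fun t ht => ?_)).symm
  have h1 : ((t : Kb)) ^ p = 1 := by
    have := (mem_rootsOfUnity p t).mp ht
    have h2 := congrArg (fun u : Kbˣ => (u : Kb)) this
    simpa using h2
  exact hc t h1

/-- a primitive `p`-th root of unity in `ℚ̄`. -/
theorem exists_primitiveRoot : ∃ ζ : Kb, IsPrimitiveRoot ζ p :=
  HasEnoughRootsOfUnity.exists_primitiveRoot Kb p


/-! ### finite level -/

/-- `χ(σ) = 1` as soon as `σ` fixes the `p`-th roots of unity. -/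
theorem chi_eq_one_of_forall (σ : GQ) (h : ∀ ζ : Kb, ζ ^ p = 1 → σ ζ = ζ) : chi p σ = 1 := by
  have hv : (1 : ZMod p).val = 1 := by
    haveI : Fact (1 < p) := ⟨hp.out.one_lt⟩
    exact ZMod.val_one p
  have h1 : ((chi p σ : (ZMod p)ˣ) : ZMod p) = 1 := by
    refine chi_unique p σ (fun ξ hξ => ?_)
    rw [hv, pow_one, h ξ hξ]
  exact Units.ext h1

/-- `χ(σ) = 1` as soon as `σ` fixes one primitive `p`-th root of unity. -/
theorem chi_eq_one_of_primitiveRoot (σ : GQ) {ζ : Kb} (hζ : IsPrimitiveRoot ζ p)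
    (h : σ ζ = ζ) : chi p σ = 1 := by
  refine chi_eq_one_of_forall p σ (fun ξ hξ => ?_)
  obtain ⟨i, -, rfl⟩ := hζ.eq_pow_of_pow_eq_one hξ
  rw [map_pow, h]

/-- `χ` is trivial on `Gal(ℚ̄/ℚ(ζ_p))`. -/
theorem chi_finiteLevel : GaloisFactorsThroughFiniteLevel (chi p) := by
  obtain ⟨ζ, hζ⟩ := exists_primitiveRoot p
  haveI : Algebra.IsAlgebraic ℚ Kb := AlgebraicClosure.isAlgebraic ℚ
  have hint : IsIntegral ℚ ζ := (Algebra.IsAlgebraic.isAlgebraic ζ).isIntegral
  refine ⟨IntermediateField.adjoin ℚ {ζ}, IntermediateField.adjoin.finiteDimensional hint,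
    fun σ hσ => ?_⟩
  exact chi_eq_one_of_primitiveRoot p σ hζ
    (hσ ζ (IntermediateField.mem_adjoin_simple_self ℚ ζ))

/-! ### reduction is injective on `μ_p` away from `p` -/

section reduction

variable {L : Type*} [Field L] {A : ValuationSubring L}

theorem valuation_eq_one_of_pow_eq_one (A : ValuationSubring L) {n : ℕ} (hn : n ≠ 0) {η : L}
    (hη : η ^ n = 1) : A.valuation η = 1 := by
  have h : (A.valuation η) ^ n = 1 := by rw [← map_pow, hη, map_one]
  rcases lt_trichotomy (A.valuation η) 1 with h1 | h1 | h1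
  · exact absurd h (pow_lt_one₀ zero_le h1 hn).ne
  · exact h1
  · exact absurd h (one_lt_pow₀ h1 hn).ne'

theorem mem_of_pow_eq_one (A : ValuationSubring L) {n : ℕ} (hn : n ≠ 0) {η : L}
    (hη : η ^ n = 1) : η ∈ A :=
  (A.valuation_le_one_iff η).mp (valuation_eq_one_of_pow_eq_one A hn hη).le

/-- **reduction is injective on `n`-th roots of unity** for `A` over `ℓ ∤ n`: a nontrivial `n`-th
root of unity `η` has `1 - η` a unit of `A`. -/
theorem valuation_one_sub_eq_one {ℓ n : ℕ} [Fact ℓ.Prime] (hA : A.LiesOverPrime ℓ)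
    (hn : ¬ ℓ ∣ n) {η : L} (hη : η ^ n = 1) (hη1 : η ≠ 1) : A.valuation (1 - η) = 1 := by
  have hn0 : n ≠ 0 := by
    rintro rfl
    exact hn (dvd_zero _)
  have hvη : A.valuation η = 1 := valuation_eq_one_of_pow_eq_one A hn0 hη
  have hle : A.valuation (1 - η) ≤ 1 := by
    refine (Valuation.map_sub _ _ _).trans ?_
    simp [hvη]
  by_contra hne
  have hlt : A.valuation (1 - η) < 1 := lt_of_le_of_ne hle hne
  have hgeom : ∑ i ∈ Finset.range n, η ^ i = 0 := by
    have h1 : (1 - η) * ∑ i ∈ Finset.range n, η ^ i = 0 := by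
      rw [mul_neg_geom_sum, hη, sub_self]
    rcases mul_eq_zero.mp h1 with h2 | h2
    · exact absurd (sub_eq_zero.mp h2).symm hη1
    · exact h2
  have hsum : (n : L) = ∑ j ∈ Finset.range n, (1 - η ^ j) := by
    rw [Finset.sum_sub_distrib, hgeom, sub_zero, Finset.sum_const, Finset.card_range,
      nsmul_eq_mul, mul_one]
  have hvn : A.valuation (n : L) < 1 := by
    rw [hsum]
    refine Valuation.map_sum_lt _ one_ne_zero (fun j _ => ?_)
    rw [← mul_neg_geom_sum, map_mul]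
    have h2 : A.valuation (∑ i ∈ Finset.range j, η ^ i) ≤ 1 := by
      refine Valuation.map_sum_le _ (fun i _ => ?_)
      rw [map_pow, hvη, one_pow]
    calc A.valuation (1 - η) * A.valuation (∑ i ∈ Finset.range j, η ^ i)
        ≤ A.valuation (1 - η) * 1 := mul_le_mul' le_rfl h2
      _ = A.valuation (1 - η) := mul_one _
      _ < 1 := hlt
  rw [Fermat.Agent.S18.Trans.LiesOver.valuation_natCast_eq_one hA hn] at hvn
  exact lt_irrefl _ hvn

/-- if two powers of an `n`-th root of unity are congruent modulo the maximal ideal of `A`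
(over `ℓ ∤ n`) then they are equal. -/
theorem pow_eq_pow_of_sub_mem_nonunits {ℓ n : ℕ} [Fact ℓ.Prime] (hA : A.LiesOverPrime ℓ)
    (hn : ¬ ℓ ∣ n) {ζ : L} (hζ : ζ ^ n = 1) {c d : ℕ} (h : ζ ^ c - ζ ^ d ∈ A.nonunits) :
    ζ ^ c = ζ ^ d := by
  have hn0 : n ≠ 0 := by
    rintro rfl
    exact hn (dvd_zero _)
  set η : L := ζ ^ (c + (n - 1) * d) with hηdef
  have hηn : η ^ n = 1 := by
    rw [hηdef, ← pow_mul, mul_comm, pow_mul, hζ, one_pow]
  have hmul : ζ ^ d * η = ζ ^ c := by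
    obtain ⟨m, rfl⟩ : ∃ m, n = m + 1 := Nat.exists_eq_succ_of_ne_zero hn0
    rw [hηdef, ← pow_add]
    have : d + (c + (m + 1 - 1) * d) = c + (m + 1) * d := by
      simp only [Nat.add_sub_cancel]
      ring
    rw [this, pow_add, pow_mul, hζ, one_pow, mul_one]
  by_contra hne
  have hη1 : η ≠ 1 := by
    intro h1
    apply hne
    rw [← hmul, h1, mul_one]
  have hv : A.valuation (1 - η) = 1 := valuation_one_sub_eq_one hA hn hηn hη1
  have hvd : A.valuation (ζ ^ d) = 1 := by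
    rw [map_pow, valuation_eq_one_of_pow_eq_one A hn0 hζ, one_pow]
  have heq : ζ ^ c - ζ ^ d = ζ ^ d * (η - 1) := by
    rw [mul_sub, hmul, mul_one]
  rw [ValuationSubring.mem_nonunits_iff, heq, map_mul, hvd, one_mul,
    Valuation.map_sub_swap, hv] at h
  exact lt_irrefl _ h

end reduction

/-! ### Frobenius and inertia -/

section local_

variable {p}
variable {A : ValuationSubring Kb} {ℓ : ℕ} {σ : GQ}

/-- **`χ(Frob_ℓ) = ℓ`** for every Frobenius lift at every valuation subring over `ℓ ≠ p`. -/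
theorem chi_frobenius (hℓ : ℓ.Prime) (hℓp : ℓ ≠ p) (hA : A.LiesOverPrime ℓ)
    (hσ : A.IsFrobeniusAt σ ℓ) : ((chi p σ : (ZMod p)ˣ) : ZMod p) = (ℓ : ZMod p) := by
  haveI : Fact ℓ.Prime := ⟨hℓ⟩
  have hndvd : ¬ ℓ ∣ p := fun h => hℓp ((Nat.prime_dvd_prime_iff_eq hℓ hp.out).mp h)
  obtain ⟨-, hres⟩ := Fermat.Agent.S37.FrobeniusEvery.isFrobeniusAt_iff_forall.mp hσ
  refine chi_unique p σ (fun ζ hζ => ?_)
  have hmem : ζ ∈ A := mem_of_pow_eq_one A hp.out.ne_zero hζ
  have h1 := hres ζ hmem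
  rw [chi_spec p σ hζ] at h1 ⊢
  rw [pow_eq_pow_of_sub_mem_nonunits hA hndvd hζ h1, ZMod.val_natCast]
  exact pow_eq_pow_mod ℓ hζ

/-- **`χ` is unramified away from `p`**: inertia at any valuation subring over `ℓ ≠ p` is killed. -/
theorem chi_inertia (hℓ : ℓ.Prime) (hℓp : ℓ ≠ p) (hA : A.LiesOverPrime ℓ)
    (hσ : σ ∈ A.inertiaSubgroupIn ℚ) : chi p σ = 1 := by
  haveI : Fact ℓ.Prime := ⟨hℓ⟩
  have hndvd : ¬ ℓ ∣ p := fun h => hℓp ((Nat.prime_dvd_prime_iff_eq hℓ hp.out).mp h)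
  have hv : (1 : ZMod p).val = 1 := by
    haveI : Fact (1 < p) := ⟨hp.out.one_lt⟩
    exact ZMod.val_one p
  have h1 : ((chi p σ : (ZMod p)ˣ) : ZMod p) = 1 := by
    refine chi_unique p σ (fun ζ hζ => ?_)
    have hmem : ζ ∈ A := mem_of_pow_eq_one A hp.out.ne_zero hζ
    have h2 := Fermat.Agent.S05.apply_sub_mem_nonunits hσ hmem
    rw [chi_spec p σ hζ] at h2 ⊢
    rw [hv]
    have h3 : ζ ^ ((chi p σ : (ZMod p)ˣ) : ZMod p).val - ζ ^ 1 ∈ A.nonunits := by
      rwa [pow_one]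
    exact pow_eq_pow_of_sub_mem_nonunits hA hndvd hζ h3
  exact Units.ext h1

end local_

/-! ### the `k`-valued character, `k` a field of characteristic `p` -/

section kvalued

variable (k : Type) [Field k] [CharP k p]

/-- the mod `p` cyclotomic character with values in a field `k` of characteristic `p`. -/
noncomputable def chiK : GQ →* kˣ :=
  (Units.map ((ZMod.castHom (dvd_refl p) k : ZMod p →+* k) : ZMod p →* k)).comp (chi p)

theorem chiK_coe (σ : GQ) :
    ((chiK p k σ : kˣ) : k) = ZMod.castHom (dvd_refl p) k ((chi p σ : (ZMod p)ˣ) : ZMod p) := rfl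

theorem chiK_eq_one_of_forall (σ : GQ) (h : ∀ ζ : Kb, ζ ^ p = 1 → σ ζ = ζ) : chiK p k σ = 1 := by
  rw [chiK, MonoidHom.comp_apply, chi_eq_one_of_forall p σ h, map_one]

theorem chiK_finiteLevel : GaloisFactorsThroughFiniteLevel (chiK p k) := by
  obtain ⟨L, hL, h⟩ := chi_finiteLevel p
  exact ⟨L, hL, fun σ hσ => by rw [chiK, MonoidHom.comp_apply, h σ hσ, map_one]⟩

variable {p} {A : ValuationSubring Kb} {ℓ : ℕ} {σ : GQ}

/-- **`χ_k(Frob_ℓ) = ℓ` in `k`.** -/
theorem chiK_frobenius (hℓ : ℓ.Prime) (hℓp : ℓ ≠ p) (hA : A.LiesOverPrime ℓ)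
    (hσ : A.IsFrobeniusAt σ ℓ) : ((chiK p k σ : kˣ) : k) = (ℓ : k) := by
  rw [chiK_coe, chi_frobenius hℓ hℓp hA hσ, map_natCast]

theorem chiK_inertia (hℓ : ℓ.Prime) (hℓp : ℓ ≠ p) (hA : A.LiesOverPrime ℓ)
    (hσ : σ ∈ A.inertiaSubgroupIn ℚ) : chiK p k σ = 1 := by
  rw [chiK, MonoidHom.comp_apply, chi_inertia hℓ hℓp hA hσ, map_one]

end kvalued

end Fermat.Agent.S29.CycloChar
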