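import Mathlib
import Fermat.Agent.S29.FiniteLevel
import Fermat.Agent.S29.Interface
import Fermat.Agent.S29.GaloisHecke

/-!
# S29 (R-core C3 → C9): a finite-dimensional Galois-stable eigen-subspace of `Vbig`

`Vbig N p k0 = k0 ⊗[ZMod p] J₀(N)[p]` with the Galois action `galBig` and the Hecke operators `Tl`
(`S29/Interface`).

* `galBig_comm_Tl` : `galBig σ ∘ Tl ℓ = Tl ℓ ∘ galBig σ`;
* `exists_eigen_stable` : from ONE eigenvector `v` (eigenvalues `a ℓ`, `ℓ ∤ N p`) a
  finite-dimensional `G_ℚ`-stable subspace `W ∋ v` consisting of eigenvectors with the same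
  eigenvalues, on which `G_ℚ` acts through `Gal(L/ℚ)`, `L/ℚ` finite normal, `L ⊇ L0`;
* `restrictRep`, the representation on a stable subspace, with `restrictRep_apply`.
-/

set_option autoImplicit false

noncomputable section

namespace Fermat.Agent.S29.FiniteLevelEigen

open AlgebraicCurve ModularCurve IntermediateField TensorProduct
open Fermat.Agent.S29.Interface Fermat.Agent.S29.FiniteLevel

local notation "Kb" => AlgebraicClosure ℚ
local notation "GQ" => (AlgebraicClosure ℚ ≃ₐ[ℚ] AlgebraicClosure ℚ)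

variable (N p : ℕ) [NeZero N] (k0 : Type) [Field k0] [Algebra (ZMod p) k0]

/-- Galois commutes with Hecke on `J₀(N)[p]`. -/
theorem torsionGaloisRep_heckeTors (ℓ : Nat.Primes) (σ : GQ) (x : Jp N p) :
    JZero.torsionGaloisRep N p σ (heckeTors N p ℓ x) =
      heckeTors N p ℓ (JZero.torsionGaloisRep N p σ x) := by
  apply Subtype.ext
  rw [JZero.coe_torsionGaloisRep_apply, coe_heckeTors, coe_heckeTors,
    JZero.coe_torsionGaloisRep_apply]
  exact Fermat.Agent.S29.GaloisHecke.heckeOperatorBar_smul N ℓ σ (x : JZero N)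

/-- Galois commutes with Hecke on `Vbig`. -/
theorem galBig_comm_Tl (ℓ : Nat.Primes) (σ : GQ) (v : Vbig N p k0) :
    galBig N p k0 σ (Tl N p k0 ℓ v) = Tl N p k0 ℓ (galBig N p k0 σ v) := by
  induction v using TensorProduct.induction_on with
  | zero => rw [map_zero, map_zero, map_zero]
  | tmul c x =>
    rw [Tl_tmul, galBig_tmul, galBig_tmul, Tl_tmul, torsionGaloisRep_heckeTors]
  | add x y hx hy => rw [map_add, map_add, hx, hy, map_add, map_add]

/-- **(C3 → C9)** the orbit span of an eigenvector: finite-dimensional, Galois-stable, made of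
eigenvectors, with a finite normal level containing `L0`. -/
theorem exists_eigen_stable (a : Nat.Primes → k0) (v : Vbig N p k0)
    (hv : ∀ ℓ : Nat.Primes, ¬ (ℓ : ℕ) ∣ N * p → Tl N p k0 ℓ v = a ℓ • v)
    (L0 : IntermediateField ℚ Kb) [FiniteDimensional ℚ L0] :
    ∃ W : Submodule k0 (Vbig N p k0), v ∈ W ∧ FiniteDimensional k0 W ∧
      (∀ σ : GQ, W ≤ W.comap (galBig N p k0 σ)) ∧
      (∀ ℓ : Nat.Primes, ¬ (ℓ : ℕ) ∣ N * p → ∀ w ∈ W, Tl N p k0 ℓ w = a ℓ • w) ∧
      ∃ L : IntermediateField ℚ Kb, FiniteDimensional ℚ L ∧ L0 ≤ L ∧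
        (∀ σ : Kb →ₐ[ℚ] Kb, L.map σ = L) ∧
        ∀ σ : GQ, (∀ b ∈ L, σ b = b) → ∀ w ∈ W, galBig N p k0 σ w = w := by
  have hfl : HasFiniteLevelRep (galBig N p k0) v :=
    hasFiniteLevelRep_tmul (JZero.torsionGaloisRep N p) (galBig N p k0) (galBig_tmul N p k0)
      (hasFiniteLevel_torsion N p) v
  refine ⟨orbitSpan (galBig N p k0) v, mem_orbitSpan_self _ v, finiteDimensional_orbitSpan hfl,
    orbitSpan_stable _ v, ?_, exists_normal_level_ge hfl L0⟩
  intro ℓ hℓ w hw
  induction hw using Submodule.span_induction with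
  | mem x hx =>
    obtain ⟨σ, rfl⟩ := hx
    show Tl N p k0 ℓ (galBig N p k0 σ v) = a ℓ • galBig N p k0 σ v
    rw [← galBig_comm_Tl, hv ℓ hℓ, map_smul]
  | zero => rw [map_zero, smul_zero]
  | add x y _ _ hx hy => rw [map_add, hx, hy, smul_add]
  | smul c x _ hx => rw [map_smul, hx, smul_comm]

section Restrict

variable {k V : Type*} [Field k] [AddCommGroup V] [Module k V] {G : Type*} [Group G]

/-- The representation on a stable subspace. -/
def restrictRep (ρ : G →* Module.End k V) (W : Submodule k V)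
    (hW : ∀ σ : G, W ≤ W.comap (ρ σ)) : G →* Module.End k W where
  toFun σ := (ρ σ).restrict (fun w hw => hW σ hw)
  map_one' := by
    ext w
    simp only [LinearMap.coe_restrict_apply, map_one, Module.End.one_apply]
  map_mul' σ τ := by
    ext w
    simp only [LinearMap.coe_restrict_apply, map_mul, Module.End.mul_apply]

@[simp] theorem restrictRep_apply (ρ : G →* Module.End k V) (W : Submodule k V)
    (hW : ∀ σ : G, W ≤ W.comap (ρ σ)) (σ : G) (w : W) :
    ((restrictRep ρ W hW σ w : W) : V) = ρ σ (w : V) := rfl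

end Restrict

end Fermat.Agent.S29.FiniteLevelEigen
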